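import Mathlib
import Fermat.Agent.S24.ADefs
import Fermat.Agent.DS.C.Defs
import Fermat.Agent.DS.C.P.Defs

/-!
# Program DS, package (C), row C1c : the BRIDGE between `K·F₁(M) ⊂ K((q))` and functions on `ℍ`.
DEFINITIONS.  Row chief: helper16.  Namespace `Fermat.Agent.DS`, prefix `dscbr`.

Everything is GENERIC in a field of constants `K` of characteristic zero with an embedding
`ι : K →+* ℂ` (`K = ℚ̄`, `ι = iotaBar` : the S24 side = places of `dscFieldBar M 1`;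
`K = ℂ`, `ι = id` : the G/FC side = complex uniformisation), so that ONE file replaces the pair
`S24/X.lean` + `G/FC/X.lean` of the `Γ₀` stack.

* `dscbrField K M = laurentBaseChange K (dscField M 1)` (for `K = ℚ̄` this IS `dscFieldBar M 1`);
* `dscbr_jd K M d hd`, `dscbr_j K M`, `dscbr_r K M a b c h` : the generators `j(q^d)`, `j(q)`,
  `R_{a,b,c}(q)` as elements of `dscbrField K M`;
* `dscbrRing K M` : the `K`-algebra they generate (analogue of `RBar N` / `gfc_RBar N`);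
* `dscbrGamma M = ±Γ₁(M) = {γ ∈ Γ₀(M) | γ₁₁ ≡ ±1 (M)}` : the stabiliser of the functions;
* `dscbrRFun M a b c τ = (X_a - X_b)/(X_a - X_c) (τ)` for helper22's analytic `dscpX M a`.
-/

set_option autoImplicit false

noncomputable section

namespace Fermat.Agent.DS

open UpperHalfPlane ModularCurve IntermediateField CongruenceSubgroup Fermat.Agent.S24
open scoped MatrixGroups Manifold ModularForm Real

/-! ## The group `±Γ₁(M)` -/

/-- `±Γ₁(M) = {γ ∈ Γ₀(M) | γ₁₁ ≡ ±1 (M)}`, the group of `γ ∈ SL₂(ℤ)` acting trivially on the functions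
of `X₁(M)`. -/
def dscbrGamma (M : ℕ) : Subgroup SL(2, ℤ) where
  carrier := {γ | ((γ 1 0 : ℤ) : ZMod M) = 0 ∧
    ((((γ 1 1 : ℤ) : ZMod M) = 1 ∧ ((γ 0 0 : ℤ) : ZMod M) = 1) ∨
      (((γ 1 1 : ℤ) : ZMod M) = -1 ∧ ((γ 0 0 : ℤ) : ZMod M) = -1))}
  one_mem' := by
    refine ⟨by simp, Or.inl ⟨by simp, by simp⟩⟩
  mul_mem' := by
    rintro a b ⟨ha0, ha⟩ ⟨hb0, hb⟩
    have h10 : (((a * b) 1 0 : ℤ) : ZMod M) = 0 := by
      rw [Matrix.SpecialLinearGroup.coe_mul, Matrix.mul_apply, Fin.sum_univ_two]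
      push_cast
      rw [ha0, hb0]; ring
    have h11 : (((a * b) 1 1 : ℤ) : ZMod M) = ((a 1 1 : ℤ) : ZMod M) * ((b 1 1 : ℤ) : ZMod M) := by
      rw [Matrix.SpecialLinearGroup.coe_mul, Matrix.mul_apply, Fin.sum_univ_two]
      push_cast
      rw [ha0]; ring
    have h00 : (((a * b) 0 0 : ℤ) : ZMod M) = ((a 0 0 : ℤ) : ZMod M) * ((b 0 0 : ℤ) : ZMod M) := by
      rw [Matrix.SpecialLinearGroup.coe_mul, Matrix.mul_apply, Fin.sum_univ_two]
      push_cast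
      rw [hb0]; ring
    refine ⟨h10, ?_⟩
    rw [h11, h00]
    rcases ha with ⟨h1, h2⟩ | ⟨h1, h2⟩ <;> rcases hb with ⟨h3, h4⟩ | ⟨h3, h4⟩ <;>
      rw [h1, h2, h3, h4] <;> simp
  inv_mem' := by
    rintro a ⟨ha0, ha⟩
    have h10 : (((a⁻¹ : SL(2, ℤ)) 1 0 : ℤ) : ZMod M) = 0 := by
      rw [Matrix.SpecialLinearGroup.SL2_inv_expl a]
      simp [ha0]
    have h11 : (((a⁻¹ : SL(2, ℤ)) 1 1 : ℤ) : ZMod M) = ((a 0 0 : ℤ) : ZMod M) := by
      rw [Matrix.SpecialLinearGroup.SL2_inv_expl a]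
      simp
    have h00 : (((a⁻¹ : SL(2, ℤ)) 0 0 : ℤ) : ZMod M) = ((a 1 1 : ℤ) : ZMod M) := by
      rw [Matrix.SpecialLinearGroup.SL2_inv_expl a]
      simp
    refine ⟨h10, ?_⟩
    rw [h11, h00]
    rcases ha with ⟨h1, h2⟩ | ⟨h1, h2⟩
    · exact Or.inl ⟨h2, h1⟩
    · exact Or.inr ⟨h2, h1⟩

theorem mem_dscbrGamma {M : ℕ} {γ : SL(2, ℤ)} : γ ∈ dscbrGamma M ↔
    ((γ 1 0 : ℤ) : ZMod M) = 0 ∧
      ((((γ 1 1 : ℤ) : ZMod M) = 1 ∧ ((γ 0 0 : ℤ) : ZMod M) = 1) ∨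
        (((γ 1 1 : ℤ) : ZMod M) = -1 ∧ ((γ 0 0 : ℤ) : ZMod M) = -1)) := Iff.rfl

theorem dscbrGamma_le_Gamma0 (M : ℕ) : dscbrGamma M ≤ Gamma0 M := fun _ h => Gamma0_mem.mpr h.1

theorem Gamma1_le_dscbrGamma (M : ℕ) : Gamma1 M ≤ dscbrGamma M := by
  intro γ h
  rw [Gamma1_mem] at h
  exact ⟨h.2.2, Or.inl ⟨h.2.1, h.1⟩⟩


/-! ## The field, its generators, the ring -/

section Field

variable (K : Type) [Field K] [Algebra ℚ K] (M : ℕ) [NeZero M]

/-- the function field of `X₁(M)` over `K` (`char K = 0`) inside `K((q))`; for `K = ℚ̄` this is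
`dscFieldBar M 1`. -/
abbrev dscbrField : IntermediateField K (LaurentSeries K) := laurentBaseChange K (dscField M 1)

omit [NeZero M] in
theorem dscbr_jqd_mem {d : ℕ} [NeZero d] (hd : d ∣ M) : qExpand ℚ d jq ∈ dscField M 1 := by
  refine subset_adjoin ℚ _ (Or.inl ⟨d, inferInstance, by simpa using hd, ?_⟩)
  rw [jqModC_rat]

omit [NeZero M] in
theorem dscbr_jq_mem : jq ∈ dscField M 1 := by
  have h := dscbr_jqd_mem M (d := 1) (one_dvd M)
  rwa [qExpand_one_apply] at h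

omit [NeZero M] in
theorem dscbr_R_mem {a b c : ZMod M} (h : DscAdm M a b c) : dscR ℚ M a b c ∈ dscField M 1 := by
  refine subset_adjoin ℚ _ (Or.inr ⟨1, inferInstance, a, b, c, dvd_rfl, h, ?_⟩)
  rw [qExpand_one_apply]

/-- `j(q^d)`, `d ∣ M`, as an element of `dscbrField K M`. -/
def dscbr_jd (d : ℕ) [NeZero d] (hd : d ∣ M) : dscbrField K M :=
  ⟨coeffEmb K (qExpand ℚ d jq), coeffEmb_mem_laurentBaseChange K (dscbr_jqd_mem M hd)⟩

/-- `j(q)` as an element of `dscbrField K M`. -/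
def dscbr_j : dscbrField K M :=
  ⟨coeffEmb K jq, coeffEmb_mem_laurentBaseChange K (dscbr_jq_mem M)⟩

/-- `R_{a,b,c}(q)` as an element of `dscbrField K M`. -/
def dscbr_r (a b c : ZMod M) (h : DscAdm M a b c) : dscbrField K M :=
  ⟨coeffEmb K (dscR ℚ M a b c), coeffEmb_mem_laurentBaseChange K (dscbr_R_mem M h)⟩

@[simp] theorem dscbr_coe_jd (d : ℕ) [NeZero d] (hd : d ∣ M) :
    ((dscbr_jd K M d hd : dscbrField K M) : LaurentSeries K) = coeffEmb K (qExpand ℚ d jq) := rfl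

@[simp] theorem dscbr_coe_j :
    ((dscbr_j K M : dscbrField K M) : LaurentSeries K) = coeffEmb K jq := rfl

@[simp] theorem dscbr_coe_r (a b c : ZMod M) (h : DscAdm M a b c) :
    ((dscbr_r K M a b c h : dscbrField K M) : LaurentSeries K) = coeffEmb K (dscR ℚ M a b c) := rfl

/-- the generators of `dscbrField K M`. -/
def dscbrGenSet : Set (dscbrField K M) :=
  {x | ∃ (d : ℕ) (_ : NeZero d) (hd : d ∣ M), x = dscbr_jd K M d hd} ∪
  {x | ∃ (a b c : ZMod M) (h : DscAdm M a b c), x = dscbr_r K M a b c h}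

/-- the `K`-algebra `K[j(q^d), R_{a,b,c}]` (closed under `R ↦ R⁻¹` since `R_{a,c,b} = R_{a,b,c}⁻¹`). -/
def dscbrRing : Subalgebra K (dscbrField K M) := Algebra.adjoin K (dscbrGenSet K M)

theorem dscbr_jd_mem_ring (d : ℕ) [NeZero d] (hd : d ∣ M) : dscbr_jd K M d hd ∈ dscbrRing K M :=
  Algebra.subset_adjoin (Or.inl ⟨d, inferInstance, hd, rfl⟩)

theorem dscbr_r_mem_ring (a b c : ZMod M) (h : DscAdm M a b c) :
    dscbr_r K M a b c h ∈ dscbrRing K M :=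
  Algebra.subset_adjoin (Or.inr ⟨a, b, c, h, rfl⟩)

theorem dscbr_j_eq_jd_one : dscbr_j K M = dscbr_jd K M 1 (one_dvd M) := by
  apply Subtype.ext
  rw [dscbr_coe_j, dscbr_coe_jd, qExpand_one_apply]

theorem dscbr_j_mem_ring : dscbr_j K M ∈ dscbrRing K M := by
  rw [dscbr_j_eq_jd_one]
  exact dscbr_jd_mem_ring K M 1 (one_dvd M)

end Field

/-! ## The analytic cross-ratios -/

/-- `τ ↦ (X_a(τ) - X_b(τ)) / (X_a(τ) - X_c(τ))` for helper22's `dscpX`. -/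
def dscbrRFun (M : ℕ) (a b c : ZMod M) (τ : ℍ) : ℂ :=
  (dscpX M a τ - dscpX M b τ) / (dscpX M a τ - dscpX M c τ)

/-- the diamond permutation of admissible triples. -/
theorem DscAdm.mul_unit {M : ℕ} {a b c : ZMod M} (h : DscAdm M a b c) {u : ZMod M} (hu : IsUnit u) :
    DscAdm M (u * a) (u * b) (u * c) := by
  obtain ⟨ha, hb, hc, h1, h2, h3, h4, h5, h6⟩ := h
  have hinj : ∀ x y : ZMod M, u * x = u * y → x = y := fun x y hxy => hu.mul_left_cancel hxy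
  have hz : ∀ x : ZMod M, x ≠ 0 → u * x ≠ 0 := fun x hx h0 => hx (hinj x 0 (by rw [h0, mul_zero]))
  refine ⟨hz a ha, hz b hb, hz c hc, fun e => h1 (hinj _ _ e), fun e => h2 (hinj _ _ ?_),
    fun e => h3 (hinj _ _ e), fun e => h4 (hinj _ _ ?_), fun e => h5 (hinj _ _ e),
    fun e => h6 (hinj _ _ ?_)⟩
  · rw [e]; ring
  · rw [e]; ring
  · rw [e]; ring

theorem DscAdm.swap {M : ℕ} {a b c : ZMod M} (h : DscAdm M a b c) : DscAdm M a c b := by
  obtain ⟨ha, hb, hc, h1, h2, h3, h4, h5, h6⟩ := h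
  refine ⟨ha, hc, hb, h3, h4, h1, h2, fun e => h5 e.symm, fun e => h6 ?_⟩
  rw [e]; ring

end Fermat.Agent.DS
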