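import Mathlib
import Fermat.Agent.S24.ADefs
import Fermat.Agent.S24.CuspExp
import Fermat.Agent.G.Kum.PerExpBase

/-!
# Program DS, package (C), row C1c, leaf Br-0 : inverses and width normalisation of cusp expansions
(helper16).  Generic: `S24/CuspExp` + `G/Kum/PerExpBase` only.

* `dscbr_hasCuspExp_inv` : if `f` is holomorphic and nowhere zero on `ℍ` with an expansion `S` in
  `exp(2πiτ/h)`, then `1/f` has the expansion `S⁻¹`.
* `dscbr_hasCuspExp_of_periodic` : an `h`-periodic function with an expansion in `exp(2πiτ/(hk))` has an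
  expansion in `exp(2πiτ/h)`.
-/

set_option autoImplicit false

noncomputable section

namespace Fermat.Agent.DS

open UpperHalfPlane ModularCurve Fermat.Agent.S24 Fermat.Agent.G Filter
open scoped MatrixGroups Manifold ModularForm Real Topology

variable {h : ℕ} [NeZero h] {f : ℍ → ℂ} {S : LaurentSeries ℂ}

/-- the expansion of an integral power of the local parameter. -/
theorem dscbri_hasCuspExp_qpow (h : ℕ) (k : ℤ) :
    HasCuspExp h (fun τ : ℍ => Function.Periodic.qParam (h : ℝ) (τ : ℂ) ^ k)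
      (HahnSeries.single k (1 : ℂ)) := by
  rw [cuspExp_iff]
  intro τ
  have h0 : ∀ m : ℤ, m ≠ k →
      (HahnSeries.single k (1 : ℂ)).coeff m * Function.Periodic.qParam (h : ℝ) (τ : ℂ) ^ m = 0 := by
    intro m hm
    rw [HahnSeries.coeff_single_of_ne hm, zero_mul]
  have := hasSum_single k (fun m hm => h0 m hm)
  simpa using this

/-- a function with an expansion in `exp(2πiτ/h)` is `h`-periodic. -/
theorem dscbri_periodic (hS : HasCuspExp h f S) (τ : ℍ) : f ((h : ℝ) +ᵥ τ) = f τ := by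
  have h1 := hS ((h : ℝ) +ᵥ τ)
  have h2 := hS τ
  have hh : (h : ℂ) ≠ 0 := Nat.cast_ne_zero.2 (NeZero.ne h)
  have e : (fun m : ℤ => S.coeff m *
      Complex.exp (2 * π * Complex.I * m * (((h : ℝ) +ᵥ τ : ℍ) : ℂ) / h)) =
      fun m : ℤ => S.coeff m * Complex.exp (2 * π * Complex.I * m * τ / h) := by
    funext m
    congr 1
    rw [UpperHalfPlane.coe_vadd]
    have : 2 * π * Complex.I * m * (((h : ℝ) : ℂ) + τ) / h =
        2 * π * Complex.I * m * τ / h + m * (2 * π * Complex.I) := by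
      push_cast
      field_simp
      ring
    rw [this, Complex.exp_add, Complex.exp_int_mul_two_pi_mul_I, mul_one]
  rw [e] at h1
  exact h1.unique h2

theorem dscbri_ne_zero_of_ne (hS : HasCuspExp h f S) (hne : ∀ τ, f τ ≠ 0) : S ≠ 0 := by
  rintro rfl
  have τ : ℍ := ⟨Complex.I, by simp⟩
  have h1 := hS τ
  simp only [HahnSeries.coeff_zero, zero_mul] at h1
  exact hne τ (h1.unique hasSum_zero)

theorem dscbri_norm_qParam_lt_one (τ : ℍ) : ‖Function.Periodic.qParam (h : ℝ) (τ : ℂ)‖ < 1 :=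
  Function.Periodic.norm_qParam_lt_one (cuspExp_pos h) τ.im_pos

/-- `f · q^{-m}` (`m` the order of `S`) tends to the leading coefficient at `i∞`. -/
theorem dscbri_tendsto_lead (hS : HasCuspExp h f S) :
    Tendsto (fun τ : ℍ => f τ * Function.Periodic.qParam (h : ℝ) (τ : ℂ) ^ (-S.order))
      atImInfty (𝓝 (S.coeff S.order)) := by
  set m := S.order with hm
  set c := S.coeff m with hc
  have hg := hS.mul (dscbri_hasCuspExp_qpow h (-m))
  have hgc := hg.add (HasCuspExp.const (h := h) (-c))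
  have hz : IsZeroAtImInfty ((f * fun τ : ℍ => Function.Periodic.qParam (h : ℝ) (τ : ℂ) ^ (-m)) +
      fun _ => -c) := by
    refine hgc.isZeroAtImInfty fun n hn => ?_
    rw [HahnSeries.coeff_add]
    have e : n = (n + m) + (-m) := by ring
    rw [e, HahnSeries.coeff_mul_single_add, mul_one, ← e]
    rcases lt_or_eq_of_le hn with hlt | rfl
    · have h1 : S.coeff (n + m) = 0 := HahnSeries.coeff_eq_zero_of_lt_order (by omega)
      rw [h1, HahnSeries.C_apply, HahnSeries.coeff_single_of_ne (by omega), add_zero]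
    · rw [zero_add, HahnSeries.C_apply, HahnSeries.coeff_single_same, ← hc, add_neg_cancel]
  have ht : Tendsto (fun τ : ℍ => (f τ * Function.Periodic.qParam (h : ℝ) (τ : ℂ) ^ (-m) + -c) + c)
      atImInfty (𝓝 (0 + c)) := by
    have hz' : Tendsto ((f * fun τ : ℍ => Function.Periodic.qParam (h : ℝ) (τ : ℂ) ^ (-m)) +
      fun _ => -c) atImInfty (𝓝 0) := hz
    exact hz'.add tendsto_const_nhds
  simpa using ht

/-- **Br-0a.** The inverse of a nowhere vanishing holomorphic function with a cusp expansion. -/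
theorem dscbr_hasCuspExp_inv {h : ℕ} [NeZero h] {f : ℍ → ℂ} {S : LaurentSeries ℂ} (hf : MDiff f)
    (hS : HasCuspExp h f S) (hne : ∀ τ, f τ ≠ 0) : HasCuspExp h (fun τ => (f τ)⁻¹) S⁻¹ := by
  have hS0 : S ≠ 0 := dscbri_ne_zero_of_ne hS hne
  set m := S.order with hm
  set c := S.coeff m with hc
  have hc0 : c ≠ 0 := fun h0 => hS0 (HahnSeries.coeff_order_eq_zero.1 h0)
  have hh' : (h : ℂ) ≠ 0 := Nat.cast_ne_zero.2 (NeZero.ne h)
  -- the inverse as a holomorphic function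
  have hfinv : MDiff (fun τ => (f τ)⁻¹) := fun τ => (hf τ).inv (hne τ)
  let F : HolRing := ⟨fun τ => (f τ)⁻¹, hfinv⟩
  have hper : ∀ τ : ℍ, (F : ℍ → ℂ) ((h : ℝ) +ᵥ τ) = (F : ℍ → ℂ) τ := by
    intro τ
    show (f ((h : ℝ) +ᵥ τ))⁻¹ = (f τ)⁻¹
    rw [dscbri_periodic hS τ]
  -- boundedness
  have hlim := dscbri_tendsto_lead hS
  have hcpos : 0 < ‖c‖ / 2 := by positivity
  have hev : ∀ᶠ τ : ℍ in atImInfty,
      ‖c‖ / 2 ≤ ‖f τ * Function.Periodic.qParam (h : ℝ) (τ : ℂ) ^ (-m)‖ := by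
    have h1 : Tendsto (fun τ : ℍ => ‖f τ * Function.Periodic.qParam (h : ℝ) (τ : ℂ) ^ (-m)‖)
        atImInfty (𝓝 ‖c‖) := hlim.norm
    have h2 : ‖c‖ / 2 < ‖c‖ := by linarith [norm_pos_iff.2 hc0]
    exact (h1.eventually (lt_mem_nhds h2)).mono fun τ hτ => hτ.le
  have hbd : IsBoundedAtImInfty (fun τ : ℍ => (F : ℍ → ℂ) τ *
      Complex.exp (2 * π * Complex.I * (m.toNat : ℕ) * τ / h)) := by
    rw [IsBoundedAtImInfty, BoundedAtFilter]
    refine Asymptotics.IsBigO.of_bound (2 / ‖c‖) ?_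
    filter_upwards [hev] with τ hτ
    have hq0 : Function.Periodic.qParam (h : ℝ) (τ : ℂ) ≠ 0 := Function.Periodic.qParam_ne_zero _
    have hexp : Complex.exp (2 * π * Complex.I * (m.toNat : ℕ) * τ / h) =
        Function.Periodic.qParam (h : ℝ) (τ : ℂ) ^ (m.toNat : ℤ) := by
      rw [Function.Periodic.qParam, zpow_natCast, ← Complex.exp_nat_mul]
      congr 1
      push_cast
      ring
    have hsplit : (F : ℍ → ℂ) τ * Complex.exp (2 * π * Complex.I * (m.toNat : ℕ) * τ / h) =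
        (f τ * Function.Periodic.qParam (h : ℝ) (τ : ℂ) ^ (-m))⁻¹ *
          Function.Periodic.qParam (h : ℝ) (τ : ℂ) ^ ((m.toNat : ℤ) - m) := by
      show (f τ)⁻¹ * _ = _
      rw [hexp, mul_inv, ← zpow_neg, neg_neg, mul_assoc, ← zpow_add₀ hq0]
      congr 2
      ring
    rw [hsplit]
    have hnn : 0 ≤ (m.toNat : ℤ) - m := by
      have := Int.self_le_toNat m
      omega
    obtain ⟨n, hn⟩ := Int.eq_ofNat_of_zero_le hnn
    have hq1 : ‖Function.Periodic.qParam (h : ℝ) (τ : ℂ) ^ ((m.toNat : ℤ) - m)‖ ≤ 1 := by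
      rw [hn, zpow_natCast, norm_pow]
      exact pow_le_one₀ (norm_nonneg _) (dscbri_norm_qParam_lt_one τ).le
    have hginv : ‖(f τ * Function.Periodic.qParam (h : ℝ) (τ : ℂ) ^ (-m))⁻¹‖ ≤ 2 / ‖c‖ := by
      rw [norm_inv]
      have hpos : 0 < ‖f τ * Function.Periodic.qParam (h : ℝ) (τ : ℂ) ^ (-m)‖ :=
        lt_of_lt_of_le hcpos hτ
      rw [inv_le_comm₀ hpos (by positivity)]
      have : (2 / ‖c‖)⁻¹ = ‖c‖ / 2 := by rw [inv_div]
      rw [this]
      exact hτ
    calc ‖(f τ * Function.Periodic.qParam (h : ℝ) (τ : ℂ) ^ (-m))⁻¹ *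
          Function.Periodic.qParam (h : ℝ) (τ : ℂ) ^ ((m.toNat : ℤ) - m)‖
        = ‖(f τ * Function.Periodic.qParam (h : ℝ) (τ : ℂ) ^ (-m))⁻¹‖ *
          ‖Function.Periodic.qParam (h : ℝ) (τ : ℂ) ^ ((m.toNat : ℤ) - m)‖ := norm_mul _ _
      _ ≤ 2 / ‖c‖ * 1 := mul_le_mul hginv hq1 (norm_nonneg _) (by positivity)
      _ = 2 / ‖c‖ * ‖(1 : ℍ → ℝ) τ‖ := by simp
  obtain ⟨S', hS'⟩ := gkm_hasCuspExp_of_bound h F hper m.toNat hbd
  have hprod := hS.mul hS'
  have hone : (f * fun τ => (f τ)⁻¹) = fun _ => (1 : ℂ) := by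
    funext τ
    simp only [Pi.mul_apply]
    exact mul_inv_cancel₀ (hne τ)
  have hS'' : HasCuspExp h (fun τ => (f τ)⁻¹) S' := hS'
  have hmul : S * S' = 1 := by
    have h1 : HasCuspExp h (f * fun τ => (f τ)⁻¹) (S * S') := hS.mul hS''
    rw [hone] at h1
    have h2 := h1.unique (HasCuspExp.const (h := h) (1 : ℂ))
    rw [h2, HahnSeries.C_one]
  have : S' = S⁻¹ := eq_inv_of_mul_eq_one_right hmul
  rw [← this]
  exact hS''

/-- **Br-0b.** An `h`-periodic function with an expansion in `exp(2πiτ/(hk))` has an expansion in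
`exp(2πiτ/h)`. -/
theorem dscbr_hasCuspExp_of_periodic {h k : ℕ} [NeZero h] [NeZero k] {f : ℍ → ℂ}
    {S : LaurentSeries ℂ} (hS : HasCuspExp (h * k) f S)
    (hper : ∀ τ : ℍ, f ((h : ℝ) +ᵥ τ) = f τ) :
    ∃ S₁ : LaurentSeries ℂ, HasCuspExp h f S₁ ∧ S = qExpand ℂ k S₁ := by
  haveI : NeZero (h * k) := ⟨Nat.mul_ne_zero (NeZero.ne h) (NeZero.ne k)⟩
  have hh : (h : ℂ) ≠ 0 := Nat.cast_ne_zero.2 (NeZero.ne h)
  have hk : (k : ℂ) ≠ 0 := Nat.cast_ne_zero.2 (NeZero.ne k)
  let ζ : ℂˣ := Units.mk0 (Complex.exp (2 * π * Complex.I / k)) (Complex.exp_ne_zero _)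
  have hζ : (ζ : ℂ) = Complex.exp (2 * π * Complex.I / k) := rfl
  have hrot : rotLaurent ζ S = S := by
    have h1 : HasCuspExp (h * k) (fun τ => f ((h : ℝ) +ᵥ τ)) (rotLaurent ζ S) := by
      intro τ
      have h2 := hS ((h : ℝ) +ᵥ τ)
      have e1 : (fun m : ℤ => (rotLaurent ζ S).coeff m *
          Complex.exp (2 * π * Complex.I * m * τ / ((h * k : ℕ) : ℂ))) =
          fun m : ℤ => S.coeff m *
            Complex.exp (2 * π * Complex.I * m * (((h : ℝ) +ᵥ τ : ℍ) : ℂ) / ((h * k : ℕ) : ℂ)) := by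
        funext m
        rw [rotLaurent_coeff, hζ, ← Complex.exp_int_mul, mul_comm (Complex.exp _) (S.coeff m),
          mul_assoc, ← Complex.exp_add, UpperHalfPlane.coe_vadd]
        congr 2
        push_cast
        field_simp
      rw [e1]
      exact h2
    have h2 : (fun τ => f ((h : ℝ) +ᵥ τ)) = f := funext hper
    rw [h2] at h1
    exact h1.unique hS
  have hdvd : ∀ m : ℤ, S.coeff m ≠ 0 → (k : ℤ) ∣ m := by
    intro m hm
    have h1 := congrArg (fun X : LaurentSeries ℂ => X.coeff m) hrot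
    simp only [rotLaurent_coeff] at h1
    have h2 : (ζ : ℂ) ^ m = 1 := by
      have : ((ζ : ℂ) ^ m - 1) * S.coeff m = 0 := by rw [sub_mul, h1, one_mul, sub_self]
      rcases mul_eq_zero.1 this with h3 | h3
      · exact sub_eq_zero.1 h3
      · exact absurd h3 hm
    have h3 : Complex.exp ((m : ℂ) * (2 * π * Complex.I / k)) = 1 := by
      rw [Complex.exp_int_mul, ← hζ]; exact h2
    obtain ⟨n, hn⟩ := Complex.exp_eq_one_iff.1 h3
    have h2pi : (2 * π * Complex.I : ℂ) ≠ 0 := Complex.two_pi_I_ne_zero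
    have h4 : (m : ℂ) = (k : ℂ) * n := by
      have h5 : (m : ℂ) * (2 * π * Complex.I) = ((k : ℂ) * n) * (2 * π * Complex.I) := by
        have h6 : (m : ℂ) * (2 * π * Complex.I / k) * k = (n : ℂ) * (2 * π * Complex.I) * k := by
          rw [hn]
        rw [mul_assoc, div_mul_cancel₀ _ hk] at h6
        rw [h6]; ring
      exact mul_right_cancel₀ h2pi h5
    exact ⟨n, by exact_mod_cast h4⟩
  have hbdd : BddBelow (Function.support fun n : ℤ => S.coeff ((k : ℤ) * n)) := by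
    refine ⟨min S.order 0, fun n hn => ?_⟩
    rw [Function.mem_support] at hn
    have h1 : S.order ≤ (k : ℤ) * n := HahnSeries.order_le_of_coeff_ne_zero hn
    have hpos : (1 : ℤ) ≤ k := by exact_mod_cast Nat.one_le_iff_ne_zero.2 (NeZero.ne k)
    by_contra hlt
    push Not at hlt
    rw [lt_min_iff] at hlt
    nlinarith [hlt.1, hlt.2]
  have hS' : S = ModularCurve.qExpand ℂ k (HahnSeries.ofSuppBddBelow _ hbdd) := by
    ext m
    by_cases hdm : (k : ℤ) ∣ m
    · obtain ⟨n, rfl⟩ := hdm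
      rw [qExpand_coeff_mul, HahnSeries.coeff_ofSuppBddBelow]
    · rw [qExpand_coeff_of_not_dvd k _ hdm]
      by_contra hne
      exact hdm (hdvd m hne)
  refine ⟨HahnSeries.ofSuppBddBelow _ hbdd, ?_, hS'⟩
  refine (cuspExp_qExpand_iff (h := h) k).1 ?_
  rw [← hS']
  exact hS

end Fermat.Agent.DS
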