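import Fermat.Agent.DS.C.Br.Defs
import Fermat.Agent.DS.C.P.Slash
import Fermat.Agent.DS.C.U.Nonvanish
import Fermat.Agent.DS.C.Br.Inv
import Fermat.Agent.DS.C.P.Level

/-!
# DS-C row C1c, leaf Br-1 : the analytic cross-ratios `R_{a,b,c} = (X_a - X_b)/(X_a - X_c)`
(helper25; statements VERBATIM vs helper16's `Br/Spec.lean` 9ead8a7)

holomorphic, nowhere zero on `ℍ`, expansion at `∞` = the formal cross-ratio `dscR ℂ M a b c`,
diamond action of `Γ₀(M)`, invariance under `±Γ₁(M)`.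
-/

set_option autoImplicit false

noncomputable section

namespace Fermat.Agent.DS

open UpperHalfPlane ModularCurve IntermediateField CongruenceSubgroup Fermat.Agent.S24
open scoped MatrixGroups Manifold ModularForm Real

/-- quotient of holomorphic functions on `ℍ` with nowhere vanishing denominator. -/
theorem dscbr1_mdiff_div {f g : ℍ → ℂ} (hf : MDiff f) (hg : MDiff g) (hne : ∀ τ, g τ ≠ 0) :
    MDiff (fun τ => f τ / g τ) := by
  rw [UpperHalfPlane.mdifferentiable_iff] at hf hg ⊢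
  have : (fun τ => f τ / g τ) ∘ ofComplex = fun z => (f ∘ ofComplex) z / (g ∘ ofComplex) z := rfl
  rw [this]
  exact hf.div hg fun z _ => hne _

section RHol

variable (M : ℕ) [NeZero M]

theorem dscbr1_den_ne {a c : ZMod M} (ha : a ≠ 0) (hc : c ≠ 0) (h1 : a ≠ c) (h2 : a ≠ -c)
    (τ : ℍ) : dscpX M a τ - dscpX M c τ ≠ 0 :=
  sub_ne_zero.mpr (dscp_X_ne M ha hc h1 h2 τ)

theorem dscbr1_sub_mdiff {a b : ZMod M} (ha : a ≠ 0) (hb : b ≠ 0) :
    MDiff (fun τ => dscpX M a τ - dscpX M b τ) :=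
  (dscp_X_mdiff M ha).sub (dscp_X_mdiff M hb)

theorem dscbr_RFun_mdiff {a b c : ZMod M} (h : DscAdm M a b c) : MDiff (dscbrRFun M a b c) := by
  obtain ⟨ha, hb, hc, h1, h2, h3, h4, h5, h6⟩ := h
  exact dscbr1_mdiff_div (dscbr1_sub_mdiff M ha hb) (dscbr1_sub_mdiff M ha hc)
    (dscbr1_den_ne M ha hc h3 h4)

/-- the analytic cross-ratio as a holomorphic function. -/
def dscbrRHol (a b c : ZMod M) (h : DscAdm M a b c) : HolRing :=
  ⟨dscbrRFun M a b c, dscbr_RFun_mdiff M h⟩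

theorem dscbr_RFun_ne_zero {a b c : ZMod M} (h : DscAdm M a b c) (τ : ℍ) :
    dscbrRFun M a b c τ ≠ 0 := by
  obtain ⟨ha, hb, hc, h1, h2, h3, h4, h5, h6⟩ := h
  exact div_ne_zero (dscbr1_den_ne M ha hb h1 h2 τ) (dscbr1_den_ne M ha hc h3 h4 τ)

theorem dscbr1_sub_hasCuspExp {a b : ZMod M} (ha : a ≠ 0) (hb : b ≠ 0) :
    HasCuspExp 1 (fun τ => dscpX M a τ - dscpX M b τ) (dscXR ℂ M a - dscXR ℂ M b) := by
  have h := (dscp_X_hasCuspExp M ha).add (dscp_X_hasCuspExp M hb).neg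
  rw [← sub_eq_add_neg] at h
  exact h

/-- the expansion at `∞` is the formal cross-ratio. -/
theorem dscbr_RHol_hasCuspExp {a b c : ZMod M} (h : DscAdm M a b c) :
    HasCuspExp 1 (dscbrRHol M a b c h : ℍ → ℂ) (dscR ℂ M a b c) := by
  obtain ⟨ha, hb, hc, h1, h2, h3, h4, h5, h6⟩ := h
  have hnum := dscbr1_sub_hasCuspExp M ha hb
  have hden := dscbr_hasCuspExp_inv (dscbr1_sub_mdiff M ha hc) (dscbr1_sub_hasCuspExp M ha hc)
    (dscbr1_den_ne M ha hc h3 h4)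
  have := hnum.mul hden
  rw [dscR, div_eq_mul_inv]
  exact this

/-- `R_{a,c,b} = R_{a,b,c}⁻¹`. -/
theorem dscbr_RHol_swap {a b c : ZMod M} (h : DscAdm M a b c) :
    dscbrRHol M a b c h * dscbrRHol M a c b h.swap = 1 := by
  apply Subtype.ext
  funext τ
  obtain ⟨ha, hb, hc, h1, h2, h3, h4, h5, h6⟩ := h
  show dscbrRFun M a b c τ * dscbrRFun M a c b τ = 1
  unfold dscbrRFun
  have e1 := dscbr1_den_ne M ha hb h1 h2 τ
  have e2 := dscbr1_den_ne M ha hc h3 h4 τ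
  field_simp

theorem dscbr_isUnit_of_mem_Gamma0 {γ : SL(2, ℤ)} (hγ : γ ∈ Gamma0 M) :
    IsUnit (((γ 1 1 : ℤ) : ZMod M)) := by
  have hdet := γ.det_coe
  rw [Matrix.det_fin_two] at hdet
  have h10 : ((γ 1 0 : ℤ) : ZMod M) = 0 := Gamma0_mem.mp hγ
  have hz := congrArg (Int.cast : ℤ → ZMod M) hdet
  push_cast at hz
  rw [h10, mul_zero, sub_zero] at hz
  exact IsUnit.of_mul_eq_one _ (by rw [mul_comm]; exact hz)

theorem dscbr1_RHol_congr {a b c a' b' c' : ZMod M} (h : DscAdm M a b c) (h' : DscAdm M a' b' c')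
    (ea : a = a') (eb : b = b') (ec : c = c') : dscbrRHol M a b c h = dscbrRHol M a' b' c' h' := by
  subst ea eb ec
  rfl

/-- the value of a difference at `δ τ`, `δ ∈ Γ₀(M)`. -/
theorem dscbr1_sub_smul (δ : SL(2, ℤ)) (hδ : δ ∈ Gamma0 M) {a b : ZMod M} (ha : a ≠ 0)
    (hb : b ≠ 0) (τ : ℍ) :
    dscpX M a (δ • τ) - dscpX M b (δ • τ) = denom δ τ ^ 2 *
      (dscpX M (((δ 0 0 : ℤ) : ZMod M) * a) τ - dscpX M (((δ 0 0 : ℤ) : ZMod M) * b) τ) := by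
  have h := congrFun (dscp_X_sub_slash M δ hδ ha hb) τ
  rw [ModularForm.SL_slash_apply] at h
  simp only [Pi.sub_apply] at h
  have hd : denom δ τ ≠ 0 := denom_ne_zero δ τ
  rw [← h, zpow_neg, zpow_ofNat]
  field_simp

/-- THE DIAMOND ACTION : `γ ∈ Γ₀(M)` maps `R_{a,b,c}` to `R_{ua,ub,uc}`, `u = γ₁₁ mod M`
(recall `(γ • f)(τ) = f(γ⁻¹ τ)` in `HolRing`). -/
theorem dscbr_smul_RHol (γ : SL(2, ℤ)) (hγ : γ ∈ Gamma0 M) {a b c : ZMod M}
    (h : DscAdm M a b c)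
    (h' : DscAdm M (((γ 1 1 : ℤ) : ZMod M) * a) (((γ 1 1 : ℤ) : ZMod M) * b)
      (((γ 1 1 : ℤ) : ZMod M) * c)) :
    γ • dscbrRHol M a b c h = dscbrRHol M (((γ 1 1 : ℤ) : ZMod M) * a)
      (((γ 1 1 : ℤ) : ZMod M) * b) (((γ 1 1 : ℤ) : ZMod M) * c) h' := by
  apply Subtype.ext
  funext τ
  rw [HolRing.smul_apply]
  show dscbrRFun M a b c (γ⁻¹ • τ) = dscbrRFun M _ _ _ τ
  obtain ⟨ha, hb, hc, h1, h2, h3, h4, h5, h6⟩ := h
  have hδ : γ⁻¹ ∈ Gamma0 M := inv_mem hγ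
  have h00 : ((γ⁻¹ : SL(2, ℤ)) 0 0 : ℤ) = γ 1 1 := by
    rw [Matrix.SpecialLinearGroup.SL2_inv_expl γ]
    simp
  generalize γ⁻¹ = δ at hδ h00 ⊢
  unfold dscbrRFun
  rw [dscbr1_sub_smul M δ hδ ha hb τ, dscbr1_sub_smul M δ hδ ha hc τ, h00]
  have hd : denom δ τ ^ 2 ≠ 0 := pow_ne_zero 2 (denom_ne_zero δ τ)
  rw [mul_div_mul_left _ _ hd]

theorem dscbr_RHol_neg {a b c : ZMod M} (h : DscAdm M a b c) (h' : DscAdm M (-a) (-b) (-c)) :
    dscbrRHol M (-a) (-b) (-c) h' = dscbrRHol M a b c h := by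
  apply Subtype.ext
  funext τ
  show dscbrRFun M (-a) (-b) (-c) τ = dscbrRFun M a b c τ
  unfold dscbrRFun
  rw [dscp_X_neg, dscp_X_neg, dscp_X_neg]

/-- invariance under `±Γ₁(M)`. -/
theorem dscbr_smul_RHol_of_mem_Gamma (γ : SL(2, ℤ)) (hγ : γ ∈ dscbrGamma M) {a b c : ZMod M}
    (h : DscAdm M a b c) : γ • dscbrRHol M a b c h = dscbrRHol M a b c h := by
  have hγ0 : γ ∈ Gamma0 M := dscbrGamma_le_Gamma0 M hγ
  have hu := dscbr_isUnit_of_mem_Gamma0 M hγ0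
  rw [dscbr_smul_RHol M γ hγ0 h (h.mul_unit hu)]
  rcases hγ.2 with ⟨h11, -⟩ | ⟨h11, -⟩
  · exact dscbr1_RHol_congr M _ h (by rw [h11, one_mul]) (by rw [h11, one_mul])
      (by rw [h11, one_mul])
  · have hneg : DscAdm M (-a) (-b) (-c) := by
      have := h.mul_unit (u := (-1 : ZMod M)) (isUnit_one.neg)
      simpa using this
    rw [dscbr1_RHol_congr M (h.mul_unit hu) hneg (by rw [h11, neg_one_mul])
      (by rw [h11, neg_one_mul]) (by rw [h11, neg_one_mul])]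
    exact dscbr_RHol_neg M h hneg

end RHol

end Fermat.Agent.DS
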