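import Mathlib
import Fermat.Agent.S24.ADefs
import Fermat.Agent.S23.UNStab
import Fermat.Agent.S24.CuspExpSpec
import Fermat.Agent.S24.JExpSpec
import Fermat.Agent.G.FC.Bridge
import Fermat.Prelude.Thm_ModularCurve_coeffMap_qExpand
import Fermat.Agent.DS.C.Br.Defs
import Fermat.Agent.DS.C.Br.RHol

/-!
# Program DS, package (C), row C1c, leaf Br-3 : the bridge `dscbr_toHol` (helper16)

Port of `G/FC/Bridge.lean` (= `S24/Bridge.lean`) to the field `dscbrField K M = K·F₁(M)`, GENERIC in the
field of constants `(K, ι : K →+* ℂ)`, with the new generators `R_{a,b,c}`.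
`dscbr_toHol K ι M : dscbrRing K M →+* HolRing` is the unique ring hom such that `dscbr_toHol x` has the
`q`-expansion `coeffMap ι x`.
-/

set_option autoImplicit false
set_option linter.unusedSectionVars false

noncomputable section

namespace Fermat.Agent.DS

open UpperHalfPlane ModularCurve IntermediateField CongruenceSubgroup Fermat.Agent.S24 Fermat.Agent.G
open scoped MatrixGroups Manifold ModularForm Real

section Bridge

variable (K : Type) [Field K] [Algebra ℚ K] (ι : K →+* ℂ) (M : ℕ) [NeZero M]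

/-! ### base change of the generators -/

theorem dscbr_coeffMap_jd (d : ℕ) [NeZero d] :
    coeffMap ι (coeffEmb K (qExpand ℚ d jq)) = qExpand ℂ d (jqModC ℂ) := by
  rw [coeffEmb, coeffMap_coeffMap, ModularCurve.coeffMap_qExpand, ← jqModC_rat, coeffMap_jqModC]

theorem dscbr_coeffMap_XR {R S : Type*} [CommRing R] [CommRing S] (f : R →+* S) (k : ZMod M) :
    coeffMap f (dscXR R M k) = dscXR S M k := by
  rw [dscXR, coeffMap_ofPowerSeries, dscXR,
    ← RingHom.comp_apply (PowerSeries.map f) (PowerSeries.map (Int.castRingHom R)),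
    ← PowerSeries.map_comp, RingHom.ext_int (f.comp (Int.castRingHom R)) (Int.castRingHom S)]

theorem dscbr_coeffMap_R {K₁ K₂ : Type*} [Field K₁] [Field K₂] (f : K₁ →+* K₂) (a b c : ZMod M) :
    coeffMap f (dscR K₁ M a b c) = dscR K₂ M a b c := by
  rw [dscR, map_div₀, map_sub, map_sub, dscbr_coeffMap_XR, dscbr_coeffMap_XR, dscbr_coeffMap_XR, dscR]

theorem dscbr_coeffMap_r (a b c : ZMod M) :
    coeffMap ι (coeffEmb K (dscR ℚ M a b c)) = dscR ℂ M a b c := by
  rw [coeffEmb, coeffMap_coeffMap, dscbr_coeffMap_R]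

theorem dscbr_coeffMap_injective :
    Function.Injective (coeffMap ι : LaurentSeries K → LaurentSeries ℂ) := by
  intro x y hxy
  ext k
  apply ι.injective
  have := congrArg (fun z : LaurentSeries ℂ => z.coeff k) hxy
  simpa using this

theorem dscbr_coeffMap_algebraMap (c : K) :
    coeffMap ι (algebraMap K (LaurentSeries K) c) = HahnSeries.C (ι c) := by
  rw [algebraMap_laurentSeries_eq_single, coeffMap_single]
  rfl

/-! ### the field is generated by the generators -/

theorem dscbr_coeffEmb_algebraMap (c : ℚ) :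
    coeffEmb K (algebraMap ℚ (LaurentSeries ℚ) c)
      = algebraMap K (LaurentSeries K) (algebraMap ℚ K c) := by
  rw [algebraMap_laurentSeries_eq_single, algebraMap_laurentSeries_eq_single, coeffEmb,
    coeffMap_single]

/-- every element of the rational field `dscField M 1` lies, after base change, in the subfield generated
by the generators. -/
theorem dscbr_coeffEmb_mem_adjoin {x : LaurentSeries ℚ} (hx : x ∈ dscField M 1) :
    ∃ y : dscbrField K M, y ∈ IntermediateField.adjoin K (dscbrGenSet K M) ∧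
      (y : LaurentSeries K) = coeffEmb K x := by
  unfold dscField dscFieldC at hx
  induction hx using IntermediateField.adjoin_induction with
  | mem x hx =>
      rcases hx with ⟨d, hne, hd, rfl⟩ | ⟨e, hne, a, b, c, he, hadm, rfl⟩
      · have := hne
        have hd' : d ∣ M := by simpa using hd
        refine ⟨dscbr_jd K M d hd', IntermediateField.subset_adjoin _ _
          (Or.inl ⟨d, inferInstance, hd', rfl⟩), ?_⟩
        rw [dscbr_coe_jd, jqModC_rat]
      · have he1 : e = 1 := Nat.dvd_one.mp he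
        subst he1
        refine ⟨dscbr_r K M a b c hadm, IntermediateField.subset_adjoin _ _
          (Or.inr ⟨a, b, c, hadm, rfl⟩), ?_⟩
        rw [dscbr_coe_r, qExpand_one_apply]
  | algebraMap c =>
      refine ⟨algebraMap K (dscbrField K M) (algebraMap ℚ K c),
        IntermediateField.algebraMap_mem _ _, ?_⟩
      rw [dscbr_coeffEmb_algebraMap]
      rfl
  | add x y _ _ hx hy =>
      obtain ⟨x', hx', ex⟩ := hx
      obtain ⟨y', hy', ey⟩ := hy
      refine ⟨x' + y', add_mem hx' hy', ?_⟩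
      rw [map_add, ← ex, ← ey]
      rfl
  | inv x _ hx =>
      obtain ⟨x', hx', ex⟩ := hx
      refine ⟨x'⁻¹, inv_mem hx', ?_⟩
      rw [map_inv₀, ← ex]
      rfl
  | mul x y _ _ hx hy =>
      obtain ⟨x', hx', ex⟩ := hx
      obtain ⟨y', hy', ey⟩ := hy
      refine ⟨x' * y', mul_mem hx' hy', ?_⟩
      rw [map_mul, ← ex, ← ey]
      rfl

/-- the field is generated over `K` by the `j(q^d)` and the `R_{a,b,c}`. -/
theorem dscbr_adjoin_genSet_eq_top : IntermediateField.adjoin K (dscbrGenSet K M) = ⊤ := by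
  rw [eq_top_iff]
  rintro ⟨z, hz⟩ -
  have key : ∀ (z : LaurentSeries K) (hz : z ∈ dscbrField K M),
      (⟨z, hz⟩ : dscbrField K M) ∈ IntermediateField.adjoin K (dscbrGenSet K M) := by
    intro z hz
    have hz' : z ∈ IntermediateField.adjoin K
        (⇑(coeffEmb K) '' (dscField M 1 : Set (LaurentSeries ℚ))) := hz
    induction hz' using IntermediateField.adjoin_induction with
    | mem z hz1 =>
        obtain ⟨x, hx, rfl⟩ := hz1
        obtain ⟨y, hy, e⟩ := dscbr_coeffEmb_mem_adjoin K M hx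
        have : y = ⟨coeffEmb K x, hz⟩ := Subtype.ext e
        rw [← this]
        exact hy
    | algebraMap c =>
        exact IntermediateField.algebraMap_mem _ c
    | add x y hx hy hx' hy' =>
        have hx0 : x ∈ dscbrField K M := hx
        have hy0 : y ∈ dscbrField K M := hy
        have := add_mem (hx' hx0) (hy' hy0)
        exact this
    | inv x hx hx' =>
        have hx0 : x ∈ dscbrField K M := hx
        have := inv_mem (hx' hx0)
        exact this
    | mul x y hx hy hx' hy' =>
        have hx0 : x ∈ dscbrField K M := hx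
        have hy0 : y ∈ dscbrField K M := hy
        have := mul_mem (hx' hx0) (hy' hy0)
        exact this
  exact key z hz

/-- the field is the fraction field of `dscbrRing K M`. -/
theorem dscbr_isFractionRing : IsFractionRing (dscbrRing K M) (dscbrField K M) := by
  refine IsFractionRing.of_field _ _ fun z => ?_
  have hz : z ∈ IntermediateField.adjoin K (dscbrGenSet K M) := by
    rw [dscbr_adjoin_genSet_eq_top]
    exact IntermediateField.mem_top
  obtain ⟨x, hx, y, hy, e⟩ := IntermediateField.mem_adjoin_iff_div.mp hz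
  exact ⟨⟨x, hx⟩, ⟨y, hy⟩, e⟩

/-! ### the bridge -/

/-- every element of `dscbrRing K M` is the expansion of a holomorphic function. -/
theorem dscbr_bridge_exists_hol {x : dscbrField K M} (hx : x ∈ dscbrRing K M) :
    ∃ f : HolRing, HasCuspExp 1 (f : ℍ → ℂ)
      (coeffMap ι ((x : dscbrField K M) : LaurentSeries K)) := by
  unfold dscbrRing at hx
  induction hx using Algebra.adjoin_induction with
  | mem x hx =>
      rcases hx with ⟨d, hne, hd, rfl⟩ | ⟨a, b, c, hadm, rfl⟩
      · have := hne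
        refine ⟨gfc_jdHol d, ?_⟩
        rw [dscbr_coe_jd, dscbr_coeffMap_jd]
        exact gfc_hasCuspExp_jdHol d
      · refine ⟨dscbrRHol M a b c hadm, ?_⟩
        rw [dscbr_coe_r, dscbr_coeffMap_r]
        exact dscbr_RHol_hasCuspExp M hadm
  | algebraMap c =>
      refine ⟨HolRing.C (ι c), ?_⟩
      have h1 : ((algebraMap K (dscbrField K M) c : dscbrField K M) :
          LaurentSeries K) = algebraMap K (LaurentSeries K) c := rfl
      rw [h1, dscbr_coeffMap_algebraMap]
      exact HasCuspExp.const (ι c)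
  | add x y _ _ hx hy =>
      obtain ⟨f, hf⟩ := hx
      obtain ⟨g, hg⟩ := hy
      refine ⟨f + g, ?_⟩
      have h1 : ((x + y : dscbrField K M) : LaurentSeries K)
          = (x : LaurentSeries K) + (y : LaurentSeries K) := rfl
      rw [h1, map_add]
      exact hf.add hg
  | mul x y _ _ hx hy =>
      obtain ⟨f, hf⟩ := hx
      obtain ⟨g, hg⟩ := hy
      refine ⟨f * g, ?_⟩
      have h1 : ((x * y : dscbrField K M) : LaurentSeries K)
          = (x : LaurentSeries K) * (y : LaurentSeries K) := rfl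
      rw [h1, map_mul]
      exact hf.mul hg

/-- existence of the bridge. -/
theorem dscbr_exists_toHol : ∃ φ : dscbrRing K M →+* HolRing, ∀ x : dscbrRing K M,
    HasCuspExp 1 (φ x : ℍ → ℂ) (coeffMap ι ((x : dscbrField K M) : LaurentSeries K)) := by
  classical
  have hex : ∀ x : dscbrRing K M, ∃ f : HolRing, HasCuspExp 1 (f : ℍ → ℂ)
      (coeffMap ι ((x : dscbrField K M) : LaurentSeries K)) :=
    fun x => dscbr_bridge_exists_hol K ι M x.2
  choose φ hφ using hex
  refine ⟨{ toFun := φ, map_one' := ?_, map_mul' := ?_, map_zero' := ?_, map_add' := ?_ }, hφ⟩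
  · refine gfc_bridge_hol_ext (hφ 1) ?_
    have h1 : coeffMap ι ((((1 : dscbrRing K M) : dscbrField K M)) : LaurentSeries K)
        = HahnSeries.C (1 : ℂ) := by
      have : ((((1 : dscbrRing K M) : dscbrField K M)) : LaurentSeries K) = 1 := rfl
      rw [this, map_one, map_one]
    rw [h1]
    exact HasCuspExp.const (1 : ℂ)
  · intro x y
    refine gfc_bridge_hol_ext (hφ (x * y)) ?_
    have h1 : coeffMap ι ((((x * y : dscbrRing K M) : dscbrField K M)) : LaurentSeries K)
        = coeffMap ι (((x : dscbrField K M)) : LaurentSeries K)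
          * coeffMap ι (((y : dscbrField K M)) : LaurentSeries K) := by
      rw [← map_mul]
      rfl
    rw [h1]
    exact (hφ x).mul (hφ y)
  · refine gfc_bridge_hol_ext (hφ 0) ?_
    have h1 : coeffMap ι ((((0 : dscbrRing K M) : dscbrField K M)) : LaurentSeries K)
        = HahnSeries.C (0 : ℂ) := by
      have : ((((0 : dscbrRing K M) : dscbrField K M)) : LaurentSeries K) = 0 := rfl
      rw [this, map_zero, map_zero]
    rw [h1]
    exact HasCuspExp.const (0 : ℂ)
  · intro x y
    refine gfc_bridge_hol_ext (hφ (x + y)) ?_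
    have h1 : coeffMap ι ((((x + y : dscbrRing K M) : dscbrField K M)) : LaurentSeries K)
        = coeffMap ι (((x : dscbrField K M)) : LaurentSeries K)
          + coeffMap ι (((y : dscbrField K M)) : LaurentSeries K) := by
      rw [← map_add]
      rfl
    rw [h1]
    exact (hφ x).add (hφ y)

/-- THE BRIDGE `K[j(q^d), R_{a,b,c}] → HolRing`. -/
def dscbr_toHol : dscbrRing K M →+* HolRing := (dscbr_exists_toHol K ι M).choose

theorem dscbr_hasCuspExp_toHol (x : dscbrRing K M) :
    HasCuspExp 1 (dscbr_toHol K ι M x : ℍ → ℂ)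
      (coeffMap ι ((x : dscbrField K M) : LaurentSeries K)) :=
  (dscbr_exists_toHol K ι M).choose_spec x

theorem dscbr_toHol_injective : Function.Injective (dscbr_toHol K ι M) := by
  intro x y hxy
  have hx := dscbr_hasCuspExp_toHol K ι M x
  have hy := dscbr_hasCuspExp_toHol K ι M y
  rw [hxy] at hx
  have h := hx.unique hy
  exact Subtype.ext (Subtype.ext (dscbr_coeffMap_injective K ι h))

theorem dscbr_toHol_algebraMap (c : K) :
    dscbr_toHol K ι M (algebraMap K (dscbrRing K M) c) = HolRing.C (ι c) := by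
  refine gfc_bridge_hol_ext (dscbr_hasCuspExp_toHol K ι M _) ?_
  have h1 : ((((algebraMap K (dscbrRing K M) c : dscbrRing K M) : dscbrField K M)) :
      LaurentSeries K) = algebraMap K (LaurentSeries K) c := rfl
  rw [h1, dscbr_coeffMap_algebraMap]
  exact HasCuspExp.const (ι c)

theorem dscbr_toHol_jd (d : ℕ) [NeZero d] (hd : d ∣ M) :
    dscbr_toHol K ι M ⟨dscbr_jd K M d hd, dscbr_jd_mem_ring K M d hd⟩ =
      HolRing.compGL (Fermat.Agent.S23.utGL d 0 1)
        (Fermat.Agent.S23.det_utGL_pos (NeZero.ne d) one_ne_zero 0) jHol := by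
  refine gfc_bridge_hol_ext (dscbr_hasCuspExp_toHol K ι M _) ?_
  show HasCuspExp 1 (gfc_jdHol d : ℍ → ℂ)
    (coeffMap ι ((dscbr_jd K M d hd : dscbrField K M) : LaurentSeries K))
  rw [dscbr_coe_jd, dscbr_coeffMap_jd]
  exact gfc_hasCuspExp_jdHol d

theorem dscbr_toHol_jd' (d : ℕ) [NeZero d] (hd : d ∣ M) :
    dscbr_toHol K ι M ⟨dscbr_jd K M d hd, dscbr_jd_mem_ring K M d hd⟩ = gfc_jdHol d :=
  dscbr_toHol_jd K ι M d hd

theorem dscbr_toHol_j : dscbr_toHol K ι M ⟨dscbr_j K M, dscbr_j_mem_ring K M⟩ = jHol := by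
  refine gfc_bridge_hol_ext (dscbr_hasCuspExp_toHol K ι M _) ?_
  show HasCuspExp 1 (jHol : ℍ → ℂ)
    (coeffMap ι ((dscbr_j K M : dscbrField K M) : LaurentSeries K))
  have h1 := dscbr_coeffMap_jd K ι 1
  rw [qExpand_one_apply, qExpand_one_apply] at h1
  rw [dscbr_coe_j, h1]
  exact hasCuspExp_jFun

theorem dscbr_toHol_r (a b c : ZMod M) (h : DscAdm M a b c) :
    dscbr_toHol K ι M ⟨dscbr_r K M a b c h, dscbr_r_mem_ring K M a b c h⟩ = dscbrRHol M a b c h := by
  refine gfc_bridge_hol_ext (dscbr_hasCuspExp_toHol K ι M _) ?_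
  show HasCuspExp 1 (dscbrRHol M a b c h : ℍ → ℂ)
    (coeffMap ι ((dscbr_r K M a b c h : dscbrField K M) : LaurentSeries K))
  rw [dscbr_coe_r, dscbr_coeffMap_r]
  exact dscbr_RHol_hasCuspExp M h

/-! ### the action of `Γ₀(M)` -/

theorem dscbr_smul_jdHol_of_mem_Gamma0 (γ : SL(2, ℤ)) (hγ : γ ∈ Gamma0 M) (d : ℕ) [NeZero d]
    (hd : d ∣ M) : γ • gfc_jdHol d = gfc_jdHol d := by
  have hγ' : γ⁻¹ ∈ Gamma0 M := inv_mem hγ
  have hdvd : (M : ℤ) ∣ (γ⁻¹ : SL(2, ℤ)) 1 0 :=
    (ZMod.intCast_zmod_eq_zero_iff_dvd _ M).mp (Gamma0_mem.mp hγ')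
  obtain ⟨c', hc'⟩ : (d : ℤ) ∣ (γ⁻¹ : SL(2, ℤ)) 1 0 :=
    (Int.natCast_dvd_natCast.mpr hd).trans hdvd
  exact gfc_bridge_smul_jdHol d γ c' hc'

/-- `Γ₀(M)` preserves the image of the bridge (the diamonds, on the ring). -/
theorem dscbr_exists_smul_toHol (γ : SL(2, ℤ)) (hγ : γ ∈ Gamma0 M) (x : dscbrRing K M) :
    ∃ y : dscbrRing K M, γ • dscbr_toHol K ι M x = dscbr_toHol K ι M y := by
  have key : ∀ (y : dscbrField K M) (hy : y ∈ dscbrRing K M),
      ∃ z : dscbrRing K M, γ • dscbr_toHol K ι M ⟨y, hy⟩ = dscbr_toHol K ι M z := by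
    intro y hy
    have hy' : y ∈ Algebra.adjoin K (dscbrGenSet K M) := hy
    induction hy' using Algebra.adjoin_induction with
    | mem y hy1 =>
        rcases hy1 with ⟨d, hne, hd, rfl⟩ | ⟨a, b, c, hadm, rfl⟩
        · have := hne
          refine ⟨⟨dscbr_jd K M d hd, dscbr_jd_mem_ring K M d hd⟩, ?_⟩
          have e : (⟨dscbr_jd K M d hd, hy⟩ : dscbrRing K M) =
              ⟨dscbr_jd K M d hd, dscbr_jd_mem_ring K M d hd⟩ := rfl
          rw [e, dscbr_toHol_jd']
          exact dscbr_smul_jdHol_of_mem_Gamma0 M γ hγ d hd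
        · have hu := dscbr_isUnit_of_mem_Gamma0 M hγ
          have hadm' := hadm.mul_unit hu
          refine ⟨⟨dscbr_r K M _ _ _ hadm', dscbr_r_mem_ring K M _ _ _ hadm'⟩, ?_⟩
          have e : (⟨dscbr_r K M a b c hadm, hy⟩ : dscbrRing K M) =
              ⟨dscbr_r K M a b c hadm, dscbr_r_mem_ring K M a b c hadm⟩ := rfl
          rw [e, dscbr_toHol_r, dscbr_toHol_r]
          exact dscbr_smul_RHol M γ hγ hadm hadm'
    | algebraMap c =>
        refine ⟨algebraMap K (dscbrRing K M) c, ?_⟩
        have e : (⟨algebraMap K (dscbrField K M) c, hy⟩ : dscbrRing K M)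
            = algebraMap K (dscbrRing K M) c := rfl
        rw [e, dscbr_toHol_algebraMap]
        rfl
    | add a b ha hb ha' hb' =>
        have ha0 : a ∈ dscbrRing K M := ha
        have hb0 : b ∈ dscbrRing K M := hb
        obtain ⟨za, hza⟩ := ha' ha0
        obtain ⟨zb, hzb⟩ := hb' hb0
        refine ⟨za + zb, ?_⟩
        have e : (⟨a + b, hy⟩ : dscbrRing K M) = ⟨a, ha0⟩ + ⟨b, hb0⟩ := rfl
        rw [e, map_add, smul_add, hza, hzb, map_add]
    | mul a b ha hb ha' hb' =>
        have ha0 : a ∈ dscbrRing K M := ha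
        have hb0 : b ∈ dscbrRing K M := hb
        obtain ⟨za, hza⟩ := ha' ha0
        obtain ⟨zb, hzb⟩ := hb' hb0
        refine ⟨za * zb, ?_⟩
        have e : (⟨a * b, hy⟩ : dscbrRing K M) = ⟨a, ha0⟩ * ⟨b, hb0⟩ := rfl
        rw [e, map_mul, smul_mul', hza, hzb, map_mul]
  exact key x.1 x.2

/-- functions in the image of the bridge are invariant under `±Γ₁(M)`. -/
theorem dscbr_smul_toHol_of_mem_Gamma (γ : SL(2, ℤ)) (hγ : γ ∈ dscbrGamma M) (x : dscbrRing K M) :
    γ • dscbr_toHol K ι M x = dscbr_toHol K ι M x := by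
  have hγ0 : γ ∈ Gamma0 M := dscbrGamma_le_Gamma0 M hγ
  have key : ∀ (y : dscbrField K M) (hy : y ∈ dscbrRing K M),
      γ • dscbr_toHol K ι M ⟨y, hy⟩ = dscbr_toHol K ι M ⟨y, hy⟩ := by
    intro y hy
    have hy' : y ∈ Algebra.adjoin K (dscbrGenSet K M) := hy
    induction hy' using Algebra.adjoin_induction with
    | mem y hy1 =>
        rcases hy1 with ⟨d, hne, hd, rfl⟩ | ⟨a, b, c, hadm, rfl⟩
        · have := hne
          have e : (⟨dscbr_jd K M d hd, hy⟩ : dscbrRing K M) =
              ⟨dscbr_jd K M d hd, dscbr_jd_mem_ring K M d hd⟩ := rfl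
          rw [e, dscbr_toHol_jd']
          exact dscbr_smul_jdHol_of_mem_Gamma0 M γ hγ0 d hd
        · have e : (⟨dscbr_r K M a b c hadm, hy⟩ : dscbrRing K M) =
              ⟨dscbr_r K M a b c hadm, dscbr_r_mem_ring K M a b c hadm⟩ := rfl
          rw [e, dscbr_toHol_r]
          exact dscbr_smul_RHol_of_mem_Gamma M γ hγ hadm
    | algebraMap c =>
        have e : (⟨algebraMap K (dscbrField K M) c, hy⟩ : dscbrRing K M)
            = algebraMap K (dscbrRing K M) c := rfl
        rw [e, dscbr_toHol_algebraMap]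
        rfl
    | add a b ha hb ha' hb' =>
        have ha0 : a ∈ dscbrRing K M := ha
        have hb0 : b ∈ dscbrRing K M := hb
        have e : (⟨a + b, hy⟩ : dscbrRing K M) = ⟨a, ha0⟩ + ⟨b, hb0⟩ := rfl
        rw [e, map_add, smul_add, ha' ha0, hb' hb0]
    | mul a b ha hb ha' hb' =>
        have ha0 : a ∈ dscbrRing K M := ha
        have hb0 : b ∈ dscbrRing K M := hb
        have e : (⟨a * b, hy⟩ : dscbrRing K M) = ⟨a, ha0⟩ * ⟨b, hb0⟩ := rfl
        rw [e, map_mul, smul_mul', ha' ha0, hb' hb0]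
  exact key x.1 x.2

end Bridge

end Fermat.Agent.DS
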