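import Fermat.Agent.DS.C.Br.RHol
import Fermat.Agent.DS.C.P.CuspExp

/-!
# DS-C row C1c, leaf Br-2 : the expansions of the cross-ratios at ALL cusps
(helper7; statement VERBATIM vs helper16's `Br/Spec.lean` 9ead8a7)

`(g • R_{a,b,c})(τ) = R_{a,b,c}(g⁻¹τ) = ((X_a - X_b)∣g⁻¹)(τ) / ((X_a - X_c)∣g⁻¹)(τ)`; numerator and denominator
have expansions in `exp(2πiτ/M)` with algebraic coefficients (leaf L3 of row C1a, `P/CuspExp.lean`), the
denominator is holomorphic and nowhere zero (C1b), so its inverse has the inverse expansion (Br-0), and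
algebraic numbers lie in `ι(K)` for `K` algebraically closed.  Private prefix `dscbrc_`.
-/

set_option autoImplicit false

noncomputable section

namespace Fermat.Agent.DS

open UpperHalfPlane ModularCurve IntermediateField CongruenceSubgroup Fermat.Agent.S24
open scoped MatrixGroups Manifold ModularForm Real

/-- an algebraic complex number lies in the image of an algebraically closed field. -/
theorem dscbrc_mem_range {K : Type} [Field K] [IsAlgClosed K] (ι : K →+* ℂ) {z : ℂ}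
    (hz : IsIntegral ℚ z) : ∃ x : K, ι x = z := by
  have : CharZero K := ι.charZero
  have hp : (minpoly ℚ z).map (algebraMap ℚ K) ≠ 0 :=
    (Polynomial.map_ne_zero_iff (algebraMap ℚ K).injective).2 (minpoly.ne_zero hz)
  have hroot : (((minpoly ℚ z).map (algebraMap ℚ K)).map ι).IsRoot z := by
    rw [Polynomial.map_map, Subsingleton.elim (ι.comp (algebraMap ℚ K)) (algebraMap ℚ ℂ),
      Polynomial.IsRoot.def, Polynomial.eval_map_algebraMap]
    exact minpoly.aeval ℚ z
  exact (IsAlgClosed.splits _).mem_range_of_isRoot hp hroot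

/-- a Laurent series with algebraic coefficients is defined over `K`. -/
theorem dscbrc_exists_lift {K : Type} [Field K] [IsAlgClosed K] (ι : K →+* ℂ) (S : LaurentSeries ℂ)
    (hS : ∀ n : ℤ, IsIntegral ℚ (S.coeff n)) : ∃ S' : LaurentSeries K, coeffMap ι S' = S := by
  choose c hc using fun n : ℤ => dscbrc_mem_range ι (hS n)
  have hbdd : BddBelow (Function.support c) := by
    refine ⟨S.order, fun n hn => ?_⟩
    rw [Function.mem_support] at hn
    refine HahnSeries.order_le_of_coeff_ne_zero ?_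
    rw [← hc n]
    exact (map_ne_zero_iff ι ι.injective).2 hn
  refine ⟨HahnSeries.ofSuppBddBelow c hbdd, ?_⟩
  ext n
  rw [coeffMap_coeff, HahnSeries.coeff_ofSuppBddBelow, hc]

/-- the conjugates of the cross-ratios have expansions in `exp(2πiτ/M)` with coefficients in `ι(K)`
(in fact in `ℚ(ζ_M)`), at every cusp. -/
theorem dscbr_RHol_conj_exp {K : Type} [Field K] [IsAlgClosed K] (ι : K →+* ℂ) (M : ℕ) [NeZero M]
    (g : SL(2, ℤ)) {a b c : ZMod M} (h : DscAdm M a b c) :
    ∃ S : LaurentSeries K,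
      HasCuspExp M ((g • dscbrRHol M a b c h : HolRing) : ℍ → ℂ) (coeffMap ι S) := by
  obtain ⟨g', A, D, B, ζ, iA, iD, hAD, hB0, hBD, hζ, hdec, hexp⟩ :=
    dscp_X_sub_slash_general_hasCuspExp M g⁻¹
  have hh := h
  obtain ⟨ha, hb, hc, h1, h2, h3, h4, h5, h6⟩ := hh
  obtain ⟨S1, hS1, -, hI1⟩ := hexp ha hb
  obtain ⟨S2, hS2, -, hI2⟩ := hexp ha hc
  have hf2 : MDiff ((dscpX M a - dscpX M c) ∣[(2 : ℤ)] g⁻¹) := by
    rw [ModularForm.SL_slash]
    exact ((dscp_X_mdiff M ha).sub (dscp_X_mdiff M hc)).slash 2 _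
  have hne2 : ∀ τ, ((dscpX M a - dscpX M c) ∣[(2 : ℤ)] g⁻¹) τ ≠ 0 := by
    intro τ
    rw [ModularForm.SL_slash_apply]
    exact mul_ne_zero (dscbr1_den_ne M ha hc h3 h4 _) (zpow_ne_zero _ (denom_ne_zero _ _))
  have hprod := hS1.mul (dscbr_hasCuspExp_inv hf2 hS2 hne2)
  obtain ⟨S1', e1⟩ := dscbrc_exists_lift ι S1 hI1
  obtain ⟨S2', e2⟩ := dscbrc_exists_lift ι S2 hI2
  refine ⟨S1' * S2'⁻¹, ?_⟩
  rw [map_mul, map_inv₀, e1, e2]
  convert hprod using 1
  funext τ
  rw [HolRing.smul_apply]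
  change dscbrRFun M a b c (g⁻¹ • τ) = _
  have hd : denom (Matrix.SpecialLinearGroup.toGL ((Matrix.SpecialLinearGroup.map
      (Int.castRingHom ℝ)) g⁻¹)) τ ^ (-(2 : ℤ)) ≠ 0 := zpow_ne_zero _ (denom_ne_zero _ _)
  have hden := dscbr1_den_ne M ha hc h3 h4 (g⁻¹ • τ)
  simp only [Pi.mul_apply, ModularForm.SL_slash_apply, dscbrRFun, Pi.sub_apply]
  field_simp

end Fermat.Agent.DS
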