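import Fermat.Agent.DS.C.Br.XOrd

/-!
# Program DS, package (C), row C1c (BRIDGE), leaf Br-5: the diamonds act faithfully

FORMAL.  `ord_q R_{a,b,c} = min(|a|,|b|) - min(|a|,|c|)`; if `u ≠ ±1` pick `c ∉ {0, ±1, ±u⁻¹}` (`M ≥ 6`):
`ord R_{u⁻¹,1,c} = 1 - min(|u⁻¹|,|c|) ≤ -1` while `ord R_{1,u,uc} = 1 - 1 = 0`.
-/

set_option autoImplicit false

noncomputable section

namespace Fermat.Agent.DS

open HahnSeries

/-- `|t| ≥ 1` for `t ≠ 0`. -/
theorem dscbrd_abs_pos (M : ℕ) [NeZero M] {t : ZMod M} (ht : t ≠ 0) : 1 ≤ dscbrAbs M t :=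
  dscuoAbs_pos M ht

/-- `|t| ≥ 2` for `t ∉ {0, 1, -1}`. -/
theorem dscbrd_two_le_abs (M : ℕ) [NeZero M] {t : ZMod M} (h0 : t ≠ 0) (h1 : t ≠ 1)
    (h2 : t ≠ -1) : 2 ≤ dscbrAbs M t := by
  have hlt : t.val < M := ZMod.val_lt t
  have hv0 : t.val ≠ 0 := fun h => h0 ((ZMod.val_eq_zero t).mp h)
  have hv1 : t.val ≠ 1 := by
    intro h
    apply h1
    have := ZMod.natCast_zmod_val t
    rw [h, Nat.cast_one] at this
    exact this.symm
  have hv2 : t.val ≠ M - 1 := by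
    intro h
    apply h2
    have := ZMod.natCast_zmod_val t
    rw [h] at this
    rw [← this, Nat.cast_sub (Nat.one_le_iff_ne_zero.mpr (NeZero.ne M)), ZMod.natCast_self,
      Nat.cast_one, zero_sub]
  unfold dscbrAbs
  rw [le_min_iff]
  omega

/-- `|1| = 1` for `M ≥ 3`. -/
theorem dscbrd_abs_one (M : ℕ) [NeZero M] (hM : 3 ≤ M) : dscbrAbs M (1 : ZMod M) = 1 := by
  have : Fact (1 < M) := ⟨by omega⟩
  unfold dscbrAbs
  rw [ZMod.val_one]
  omega

theorem dscbrd_X_sub_ne_zero (M : ℕ) [NeZero M] {a b : ZMod M} (ha : a ≠ 0) (hb : b ≠ 0)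
    (h1 : a ≠ b) (h2 : a ≠ -b) : dscXR ℂ M a - dscXR ℂ M b ≠ 0 := by
  intro h
  have ho := dscbr_X_sub_order M ha hb h1 h2
  rw [h, HahnSeries.order_zero] at ho
  have := dscbrd_abs_pos M ha
  have := dscbrd_abs_pos M hb
  have h3 : 1 ≤ min (dscbrAbs M a) (dscbrAbs M b) := le_min ‹_› ‹_›
  omega

/-- the order of the formal cross-ratio. -/
theorem dscbrd_R_order (M : ℕ) [NeZero M] {a b c : ZMod M} (h : DscAdm M a b c) :
    (dscR ℂ M a b c).order =
      ((min (dscbrAbs M a) (dscbrAbs M b) : ℕ) : ℤ) - ((min (dscbrAbs M a) (dscbrAbs M c) : ℕ) : ℤ) := by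
  obtain ⟨ha, hb, hc, hab, hab', hac, hac', -, -⟩ := h
  have hx := dscbrd_X_sub_ne_zero M ha hb hab hab'
  have hy := dscbrd_X_sub_ne_zero M ha hc hac hac'
  have hq : dscR ℂ M a b c ≠ 0 := div_ne_zero hx hy
  have hmul : dscR ℂ M a b c * (dscXR ℂ M a - dscXR ℂ M c) = dscXR ℂ M a - dscXR ℂ M b := by
    rw [dscR, div_mul_cancel₀ _ hy]
  have ho := HahnSeries.order_mul hq hy
  rw [hmul, dscbr_X_sub_order M ha hb hab hab', dscbr_X_sub_order M ha hc hac hac'] at ho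
  linarith

/-- admissibility is stable under multiplication by a unit. -/
theorem dscbrd_adm_mul (M : ℕ) {u : ZMod M} (hu : IsUnit u) {a b c : ZMod M}
    (h : DscAdm M a b c) : DscAdm M (u * a) (u * b) (u * c) := by
  have hinj : ∀ x y : ZMod M, u * x = u * y → x = y := fun x y hxy => hu.mul_left_cancel hxy
  have h0 : ∀ x : ZMod M, x ≠ 0 → u * x ≠ 0 := fun x hx hux => hx (hinj x 0 (by rw [hux, mul_zero]))
  have hne : ∀ x y : ZMod M, x ≠ y → u * x ≠ u * y := fun x y hxy hh => hxy (hinj x y hh)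
  have hneg : ∀ x y : ZMod M, x ≠ -y → u * x ≠ -(u * y) := fun x y hxy hh =>
    hxy (hinj x (-y) (by rw [hh, mul_neg]))
  obtain ⟨ha, hb, hc, hab, hab', hac, hac', hbc, hbc'⟩ := h
  exact ⟨h0 a ha, h0 b hb, h0 c hc, hne a b hab, hneg a b hab', hne a c hac, hneg a c hac',
    hne b c hbc, hneg b c hbc'⟩

/-- **Br-5.** the diamonds act faithfully (mod `±1`) on the formal cross-ratios. -/
theorem dscbr_diamond_faithful (M : ℕ) [NeZero M] (hM : 6 ≤ M) {u : ZMod M} (hu : IsUnit u)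
    (h : ∀ a b c : ZMod M, DscAdm M a b c → dscR ℂ M (u * a) (u * b) (u * c) = dscR ℂ M a b c) :
    u = 1 ∨ u = -1 := by
  classical
  have : Fact (1 < M) := ⟨by omega⟩
  by_contra hne
  rw [not_or] at hne
  obtain ⟨hu1, hu2⟩ := hne
  obtain ⟨v, hv⟩ := hu.exists_left_inv
  have huv : u * v = 1 := by rw [mul_comm]; exact hv
  -- choose `c ∉ {0, 1, -1, v, -v}`
  obtain ⟨c, hc⟩ : ∃ c : ZMod M, c ∉ ({0, 1, -1, v, -v} : Finset (ZMod M)) := by
    by_contra hall
    simp only [not_exists, not_not] at hall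
    have hsub : (Finset.univ : Finset (ZMod M)) ⊆ {0, 1, -1, v, -v} := fun x _ => hall x
    have h1 := Finset.card_le_card hsub
    rw [Finset.card_univ, ZMod.card] at h1
    have h2 : ({0, 1, -1, v, -v} : Finset (ZMod M)).card ≤ 5 := Finset.card_le_five
    omega
  simp only [Finset.mem_insert, Finset.mem_singleton, not_or] at hc
  obtain ⟨hc0, hc1, hc1', hcv, hcv'⟩ := hc
  have hv0 : v ≠ 0 := by
    intro h0
    rw [h0, mul_zero] at huv
    exact zero_ne_one huv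
  have hv1 : v ≠ 1 := by
    intro h1
    rw [h1, mul_one] at huv
    exact hu1 huv
  have hv1' : v ≠ -1 := by
    intro h1
    rw [h1, mul_neg, mul_one] at huv
    exact hu2 (by rw [← huv, neg_neg])
  have hadm : DscAdm M v 1 c :=
    ⟨hv0, one_ne_zero, hc0, hv1, hv1', fun hh => hcv hh.symm, fun hh => hcv' (by rw [hh, neg_neg]),
      fun hh => hc1 hh.symm, fun hh => hc1' (by rw [hh, neg_neg])⟩
  have hadm' := dscbrd_adm_mul M hu hadm
  have heq := h v 1 c hadm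
  have ho1 := dscbrd_R_order M hadm
  have ho2 := dscbrd_R_order M hadm'
  rw [heq, ho1, huv] at ho2
  -- the numerical contradiction
  have habs1 := dscbrd_abs_one M (by omega)
  have hA := dscbrd_two_le_abs M hv0 hv1 hv1'
  have hC := dscbrd_two_le_abs M hc0 hc1 hc1'
  have hU := dscbrd_abs_pos M hadm'.2.1
  have hUC := dscbrd_abs_pos M hadm'.2.2.1
  rw [habs1] at ho2
  have e1 : min (dscbrAbs M v) 1 = 1 := min_eq_right (by omega)
  have e2 : min 1 (dscbrAbs M (u * 1)) = 1 := min_eq_left hU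
  have e3 : min 1 (dscbrAbs M (u * c)) = 1 := min_eq_left hUC
  have e4 : 2 ≤ min (dscbrAbs M v) (dscbrAbs M c) := le_min hA hC
  rw [e1, e2, e3] at ho2
  push_cast at ho2
  omega

end Fermat.Agent.DS
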