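/-
Program DS (S48), package (C), row C1c, leaf Br-4 : expansions of the conjugates = `dscbr_cuspHom`
(helper17).  Statements VERBATIM vs helper16's row Spec (9ead8a7).

NOT a port of `G/FC/Conj.lean`: the level datum `dscbrLevel K ι M : DscLevel K ι` is built (with
`Γ :=` the full stabiliser of the functions, so that it exists for every `M ≥ 1`; for `6 ≤ M` the
stabiliser is `±Γ₁(M) = dscbrGamma M`) and everything is read off the generic package `DS/C/Lv`.
-/
import Mathlib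
import Fermat.Agent.DS.C.Br.Bridge
import Fermat.Agent.DS.C.Br.Cusp
import Fermat.Agent.DS.C.Br.Distinct
import Fermat.Agent.DS.C.Lv.Alg
import Fermat.Agent.DS.C.Lv.Cusp

set_option autoImplicit false

noncomputable section

namespace Fermat.Agent.DS

open UpperHalfPlane ModularCurve IntermediateField CongruenceSubgroup Fermat.Agent.S24
open scoped MatrixGroups Manifold ModularForm Real

/-! ## generalities : the stabiliser of a family of holomorphic functions -/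

/-- the stabiliser in `SL(2,ℤ)` of a family of holomorphic functions. -/
def dsclStab {R : Type*} (f : R → HolRing) : Subgroup SL(2, ℤ) where
  carrier := {γ | ∀ x, γ • f x = f x}
  one_mem' := fun x => one_smul _ _
  mul_mem' := fun {a b} ha hb x => by rw [mul_smul, hb x, ha x]
  inv_mem' := fun {a} ha x => by rw [inv_smul_eq_iff, ha x]

theorem mem_dsclStab {R : Type*} {f : R → HolRing} {γ : SL(2, ℤ)} :
    γ ∈ dsclStab f ↔ ∀ x, γ • f x = f x := Iff.rfl

/-! ## Br-4 : `Conj.lean` -/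

section Conj

variable (K : Type) [Field K] [Algebra ℚ K] [IsAlgClosed K] (ι : K →+* ℂ) (M : ℕ) [NeZero M]

/-- every conjugate `g • toHol x` has an expansion in `exp(2πiτ/M)` with coefficients in `ι(K)`. -/
theorem dscbr_conj_exists_exp (g : SL(2, ℤ)) (x : dscbrRing K M) :
    ∃ S : LaurentSeries K,
      HasCuspExp M ((g • dscbr_toHol K ι M x : HolRing) : ℍ → ℂ) (coeffMap ι S) := by
  obtain ⟨x, hx⟩ := x
  change x ∈ Algebra.adjoin K (dscbrGenSet K M) at hx
  induction hx using Algebra.adjoin_induction with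
  | mem y hy =>
    rcases hy with ⟨d, hd0, hd, rfl⟩ | ⟨a, b, c, h, rfl⟩
    · have h1 : dscbr_toHol K ι M ⟨dscbr_jd K M d hd, Algebra.subset_adjoin
          (Or.inl ⟨d, hd0, hd, rfl⟩)⟩ = jdHol d := dscbr_toHol_jd K ι M d hd
      rw [h1]
      exact dscl_conj_exists_exp_jdHol ι M g d hd
    · have h1 : dscbr_toHol K ι M ⟨dscbr_r K M a b c h, Algebra.subset_adjoin
          (Or.inr ⟨a, b, c, h, rfl⟩)⟩ = dscbrRHol M a b c h := dscbr_toHol_r K ι M a b c h
      rw [h1]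
      exact dscbr_RHol_conj_exp ι M g h
  | algebraMap c =>
    refine ⟨HahnSeries.C c, ?_⟩
    have h1 : dscbr_toHol K ι M ⟨algebraMap K (dscbrField K M) c,
        Subalgebra.algebraMap_mem _ c⟩ = HolRing.C (ι c) := dscbr_toHol_algebraMap K ι M c
    rw [h1]
    have h2 : ((g • HolRing.C (ι c) : HolRing) : ℍ → ℂ) = fun _ => ι c := rfl
    rw [h2]
    have h3 : coeffMap ι (HahnSeries.C c) = HahnSeries.C (ι c) := coeffMap_single ι 0 c
    rw [h3]
    exact HasCuspExp.const _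
  | add y z hy hz ihy ihz =>
    obtain ⟨S, hS⟩ := ihy
    obtain ⟨T, hT⟩ := ihz
    refine ⟨S + T, ?_⟩
    have h1 : (⟨y + z, Subalgebra.add_mem _ hy hz⟩ : dscbrRing K M) = ⟨y, hy⟩ + ⟨z, hz⟩ := rfl
    rw [h1, map_add, smul_add, map_add]
    exact hS.add hT
  | mul y z hy hz ihy ihz =>
    obtain ⟨S, hS⟩ := ihy
    obtain ⟨T, hT⟩ := ihz
    refine ⟨S * T, ?_⟩
    have h1 : (⟨y * z, Subalgebra.mul_mem _ hy hz⟩ : dscbrRing K M) = ⟨y, hy⟩ * ⟨z, hz⟩ := rfl
    rw [h1, map_mul, smul_mul', map_mul]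
    exact hS.mul hT

/-! ### the level datum -/

/-- the full stabiliser of the functions of `X₁(M)` (`= ±Γ₁(M)` for `6 ≤ M`, `= Γ₀(M)` for `M ≤ 5`). -/
def dscbrStab : Subgroup SL(2, ℤ) := dsclStab (dscbr_toHol K ι M)

omit [IsAlgClosed K] in
theorem dscbrGamma_le_stab : dscbrGamma M ≤ dscbrStab K ι M :=
  fun γ hγ x => dscbr_smul_toHol_of_mem_Gamma K ι M γ hγ x

theorem dscbr_finiteIndex_Gamma : (dscbrGamma M).FiniteIndex :=
  Subgroup.finiteIndex_of_le (Gamma1_le_dscbrGamma M)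

omit [IsAlgClosed K] in
theorem dscbr_finite_genSet : (dscbrGenSet K M).Finite := by
  classical
  refine Set.Finite.union ?_ ?_
  · refine ((Nat.divisors M).finite_toSet.image
      (fun d : ℕ => if h : d ∣ M ∧ d ≠ 0 then
        (haveI : NeZero d := ⟨h.2⟩; dscbr_jd K M d h.1) else 0)).subset ?_
    rintro x ⟨d, hd0, hd, rfl⟩
    refine ⟨d, ?_, ?_⟩
    · simpa using ⟨hd, NeZero.ne M⟩
    · have h : d ∣ M ∧ d ≠ 0 := ⟨hd, NeZero.ne d⟩
      simp only [dif_pos h]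
  · have : Fintype (ZMod M) := ZMod.fintype M
    refine ((Set.finite_univ (α := ZMod M × ZMod M × ZMod M)).image
      (fun t : ZMod M × ZMod M × ZMod M => if h : DscAdm M t.1 t.2.1 t.2.2 then
        dscbr_r K M t.1 t.2.1 t.2.2 h else 0)).subset ?_
    rintro x ⟨a, b, c, h, rfl⟩
    refine ⟨(a, b, c), Set.mem_univ _, ?_⟩
    simp only [dif_pos h]

omit [IsAlgClosed K] in
/-- for `6 ≤ M` the stabiliser of the functions of `X₁(M)` is `±Γ₁(M)`. -/
theorem dscbr_stab_le_Gamma (hM : 6 ≤ M) : dscbrStab K ι M ≤ dscbrGamma M := by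
  intro γ hγ
  have h0 : γ ∈ Gamma0 M := by
    apply mem_Gamma0_of_smul_jdHol M
    have h1 := hγ ⟨dscbr_jd K M M dvd_rfl, dscbr_jd_mem_ring K M M dvd_rfl⟩
    rw [dscbr_toHol_jd] at h1
    exact h1
  have hu := dscbr_isUnit_of_mem_Gamma0 M h0
  have key : ∀ a b c : ZMod M, DscAdm M a b c →
      dscR ℂ M (((γ 1 1 : ℤ) : ZMod M) * a) (((γ 1 1 : ℤ) : ZMod M) * b)
        (((γ 1 1 : ℤ) : ZMod M) * c) = dscR ℂ M a b c := by
    intro a b c h
    have h' := h.mul_unit hu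
    have e1 := dscbr_smul_RHol M γ h0 h h'
    have e2 := hγ ⟨dscbr_r K M a b c h, dscbr_r_mem_ring K M a b c h⟩
    rw [dscbr_toHol_r] at e2
    have e3 : dscbrRHol M (((γ 1 1 : ℤ) : ZMod M) * a) (((γ 1 1 : ℤ) : ZMod M) * b)
        (((γ 1 1 : ℤ) : ZMod M) * c) h' = dscbrRHol M a b c h := e1.symm.trans e2
    have e4 := dscbr_RHol_hasCuspExp M h'
    rw [e3] at e4
    exact e4.unique (dscbr_RHol_hasCuspExp M h)
  have h10 : ((γ 1 0 : ℤ) : ZMod M) = 0 := Gamma0_mem.mp h0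
  have hdet : ((γ 0 0 : ℤ) : ZMod M) * ((γ 1 1 : ℤ) : ZMod M) = 1 := by
    have hd : (γ 0 0 : ℤ) * γ 1 1 - γ 0 1 * γ 1 0 = 1 := by
      have := γ.det_coe
      rwa [Matrix.det_fin_two] at this
    have := congrArg (fun z : ℤ => (z : ZMod M)) hd
    simp only [Int.cast_sub, Int.cast_mul, Int.cast_one, h10, mul_zero, sub_zero] at this
    exact this
  refine ⟨h10, ?_⟩
  rcases dscbr_diamond_faithful M hM hu key with h1 | h1
  · left
    refine ⟨h1, ?_⟩
    rw [h1, mul_one] at hdet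
    exact hdet
  · right
    refine ⟨h1, ?_⟩
    rw [h1, mul_neg, mul_one, neg_eq_iff_eq_neg] at hdet
    exact hdet

/-- THE LEVEL DATUM of `X₁(M)` over `(K, ι)`. -/
abbrev dscbrLevel : DscLevel K ι where
  Γ := dscbrStab K ι M
  finiteIndex :=
    have := dscbr_finiteIndex_Gamma M
    Subgroup.finiteIndex_of_le (dscbrGamma_le_stab K ι M)
  h := M
  h_ne := NeZero.ne M
  F := dscbrField K M
  R := dscbrRing K M
  frac := dscbr_isFractionRing K M
  gens := dscbrGenSet K M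
  gens_finite := dscbr_finite_genSet K M
  gens_sub := fun _ hx => Algebra.subset_adjoin hx
  gens_top := dscbr_adjoin_genSet_eq_top K M
  toHol := dscbr_toHol K ι M
  hasCuspExp := dscbr_hasCuspExp_toHol K ι M
  j_mem := ⟨⟨dscbr_j K M, dscbr_j_mem_ring K M⟩, dscbr_coe_j K M⟩
  inv := fun _ hγ x => hγ x
  sep := fun _ h => h
  conj := dscbr_conj_exists_exp K ι M

theorem dscbrLevel_jR : (dscbrLevel K ι M).jR = ⟨dscbr_j K M, dscbr_j_mem_ring K M⟩ :=
  Subtype.ext (Subtype.ext ((dscbrLevel K ι M).coe_jR.trans (dscbr_coe_j K M).symm))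

theorem dscbrLevel_jF : (dscbrLevel K ι M).jF = dscbr_j K M :=
  Subtype.ext ((dscbrLevel K ι M).coe_jF.trans (dscbr_coe_j K M).symm)

theorem dscbrLevel_Γ (hM : 6 ≤ M) : (dscbrLevel K ι M).Γ = dscbrGamma M :=
  le_antisymm (dscbr_stab_le_Gamma K ι M hM) (dscbrGamma_le_stab K ι M)

/-! ### the exports of the leaf -/

theorem dscbr_exists_cuspHom (g : SL(2, ℤ)) : ∃ φ : dscbrRing K M →+* LaurentSeries K,
    ∀ x : dscbrRing K M,
      HasCuspExp M ((g • dscbr_toHol K ι M x : HolRing) : ℍ → ℂ) (coeffMap ι (φ x)) :=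
  ⟨dsclCuspHom (dscbrLevel K ι M) g, dscl_hasCuspExp_cuspHom (dscbrLevel K ι M) g⟩

/-- expansion at `i∞` of `f ∘ g⁻¹`, as a ring hom into `K((s))`, `s = exp(2πiτ/M)`. -/
def dscbr_cuspHom (g : SL(2, ℤ)) : dscbrRing K M →+* LaurentSeries K :=
  (dscbr_exists_cuspHom K ι M g).choose

theorem dscbr_hasCuspExp_cuspHom (g : SL(2, ℤ)) (x : dscbrRing K M) :
    HasCuspExp M ((g • dscbr_toHol K ι M x : HolRing) : ℍ → ℂ)
      (coeffMap ι (dscbr_cuspHom K ι M g x)) :=
  (dscbr_exists_cuspHom K ι M g).choose_spec x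

theorem dscbr_cuspHom_eq (g : SL(2, ℤ)) (x : dscbrRing K M) (S : LaurentSeries K)
    (hS : HasCuspExp M ((g • dscbr_toHol K ι M x : HolRing) : ℍ → ℂ) (coeffMap ι S)) :
    dscbr_cuspHom K ι M g x = S :=
  dscl_coeffMap_injective ι ((dscbr_hasCuspExp_cuspHom K ι M g x).unique hS)

/-- the Spec's `dscbr_cuspHom` IS the generic `dsclCuspHom` of the level datum. -/
theorem dscbr_cuspHom_eq_dscl (g : SL(2, ℤ)) :
    dscbr_cuspHom K ι M g = dsclCuspHom (dscbrLevel K ι M) g := by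
  ext1 x
  exact dscbr_cuspHom_eq K ι M g x _ (dscl_hasCuspExp_cuspHom (dscbrLevel K ι M) g x)

theorem dscbr_cuspHom_injective (g : SL(2, ℤ)) : Function.Injective (dscbr_cuspHom K ι M g) := by
  rw [dscbr_cuspHom_eq_dscl]
  exact dscl_cuspHom_injective (dscbrLevel K ι M) g

theorem dscbr_cuspHom_algebraMap (g : SL(2, ℤ)) (c : K) :
    dscbr_cuspHom K ι M g (algebraMap K (dscbrRing K M) c) = HahnSeries.C c := by
  rw [dscbr_cuspHom_eq_dscl]
  exact dscl_cuspHom_algebraMap (dscbrLevel K ι M) g c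

theorem dscbr_cuspHom_j (g : SL(2, ℤ)) :
    dscbr_cuspHom K ι M g ⟨dscbr_j K M, dscbr_j_mem_ring K M⟩ = qExpand K M (coeffEmb K jq) := by
  have h := dscl_cuspHom_jR (dscbrLevel K ι M) g
  rw [dscbrLevel_jR] at h
  rw [dscbr_cuspHom_eq_dscl]
  exact h

theorem dscbr_cuspHom_one (x : dscbrRing K M) :
    dscbr_cuspHom K ι M 1 x = qExpand K M ((x : dscbrField K M) : LaurentSeries K) := by
  apply dscbr_cuspHom_eq
  rw [one_smul, coeffMap_qExpand]
  have h := (dscbr_hasCuspExp_toHol K ι M x).qExpand M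
  rw [one_mul] at h
  exact h

/-- `dscbr_cuspHom` depends only on the left coset `g · ±Γ₁(M)`. -/
theorem dscbr_cuspHom_mul_of_mem_Gamma (g γ : SL(2, ℤ)) (hγ : γ ∈ dscbrGamma M) :
    dscbr_cuspHom K ι M (g * γ) = dscbr_cuspHom K ι M g := by
  rw [dscbr_cuspHom_eq_dscl, dscbr_cuspHom_eq_dscl]
  exact dscl_cuspHom_mul_of_mem (dscbrLevel K ι M) g γ (dscbrGamma_le_stab K ι M hγ)

/-- distinct cosets of `±Γ₁(M)` give distinct expansions (`M ≥ 6`). -/
theorem dscbr_mem_Gamma_of_cuspHom_eq (hM : 6 ≤ M) (g g' : SL(2, ℤ))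
    (h : dscbr_cuspHom K ι M g = dscbr_cuspHom K ι M g') : g⁻¹ * g' ∈ dscbrGamma M := by
  rw [dscbr_cuspHom_eq_dscl, dscbr_cuspHom_eq_dscl] at h
  exact dscbr_stab_le_Gamma K ι M hM (dscl_mem_of_cuspHom_eq (dscbrLevel K ι M) g g' h)

/-- left multiplication by `T⁻¹` rotates the expansion by `exp(2πi/M)`. -/
theorem dscbr_cuspHom_T_inv_mul (g : SL(2, ℤ)) (x : dscbrRing K M) (ζ : ℂˣ)
    (hζ : (ζ : ℂ) = Complex.exp (2 * π * Complex.I / M)) :
    coeffMap ι (dscbr_cuspHom K ι M (ModularGroup.T⁻¹ * g) x) =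
      rotLaurent ζ (coeffMap ι (dscbr_cuspHom K ι M g x)) := by
  rw [dscbr_cuspHom_eq_dscl, dscbr_cuspHom_eq_dscl]
  exact dscl_cuspHom_T_inv_mul (dscbrLevel K ι M) g x ζ hζ

end Conj

end Fermat.Agent.DS
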