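/-
Program DS (S48), package (C), row C1c, leaf Br-6 : `[K·F₁(M) : K(j)] = [SL₂(ℤ) : ±Γ₁(M)]` (helper17).
Statements VERBATIM vs helper16's row Spec (9ead8a7).  Read off the generic package `DS/C/Lv/Degree.lean`
for the level datum `dscbrLevel K ι M` of `Br/Conj.lean`.
-/
import Mathlib
import Fermat.Agent.DS.C.Br.Conj
import Fermat.Agent.DS.C.Lv.Degree

set_option autoImplicit false
set_option linter.unusedSectionVars false

noncomputable section

namespace Fermat.Agent.DS

open UpperHalfPlane ModularCurve IntermediateField CongruenceSubgroup Fermat.Agent.S24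
open scoped MatrixGroups Manifold ModularForm Real

/-! ## Br-6 : `Degree.lean` -/

section Degree

variable (K : Type) [Field K] [Algebra ℚ K] [IsAlgClosed K] (ι : K →+* ℂ) (M : ℕ) [NeZero M]

theorem dscbr_finite_quotient : Finite (SL(2, ℤ) ⧸ dscbrGamma M) :=
  have := dscbr_finiteIndex_Gamma M
  Subgroup.finite_quotient_of_finiteIndex

omit [IsAlgClosed K] in
theorem dscbr_transcendental_j : Transcendental K (dscbr_j K M) := by
  intro halg
  obtain ⟨p, hp0, hp⟩ := halg
  have h1 := congrArg (fun x : dscbrField K M => (x : LaurentSeries K).coeff (-(p.natDegree : ℤ))) hp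
  simp only [ZeroMemClass.coe_zero, HahnSeries.coeff_zero] at h1
  have h2 : ((Polynomial.aeval (dscbr_j K M) p : dscbrField K M) : LaurentSeries K) =
      Polynomial.aeval (coeffEmb K jq) p := by
    have := Polynomial.aeval_algHom_apply (dscbrField K M).val (dscbr_j K M) p
    exact this.symm
  rw [h2, Polynomial.aeval_eq_sum_range, ← HahnSeries.coeff.addMonoidHom_apply, map_sum] at h1
  simp only [HahnSeries.coeff.addMonoidHom_apply, Algebra.smul_def,
    algebraMap_laurentSeries_eq_single, HahnSeries.coeff_single_zero_mul] at h1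
  rw [Finset.sum_range_succ, dscl_coeff_coeffEmb_jq_pow_self, mul_one,
    Finset.sum_eq_zero, zero_add] at h1
  · exact hp0 (Polynomial.leadingCoeff_eq_zero.mp h1)
  · intro i hi
    rw [Finset.mem_range] at hi
    rw [dscl_coeff_coeffEmb_jq_pow_of_lt, mul_zero]
    have : (i : ℤ) < p.natDegree := by exact_mod_cast hi
    linarith

include ι in
theorem dscbr_isIntegral_of_mem_ring (x : dscbrRing K M) :
    IsIntegral K⟮dscbr_j K M⟯ (x : dscbrField K M) := by
  have h := dscl_isIntegral_of_mem_R (dscbrLevel K ι M) x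
  rw [dscbrLevel_jF] at h
  exact h

include ι in
theorem dscbr_finiteDimensional_j : FiniteDimensional K⟮dscbr_j K M⟯ (dscbrField K M) := by
  have h := dscl_finiteDimensional_jF (dscbrLevel K ι M)
  rw [dscbrLevel_jF] at h
  exact h

include ι in
theorem dscbr_isSepGen_j : IsSepGen K (dscbr_j K M) := by
  have h := dscl_isSepGen_jF (dscbrLevel K ι M)
  rw [dscbrLevel_jF] at h
  exact h

/-- extension of `dscbr_cuspHom K ι M g` to the function field. -/
def dscbr_degLift (g : SL(2, ℤ)) : dscbrField K M →+* LaurentSeries K :=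
  haveI := dscbr_isFractionRing K M
  IsFractionRing.lift (dscbr_cuspHom_injective K ι M g)

theorem dscbr_degLift_coe (g : SL(2, ℤ)) (r : dscbrRing K M) :
    dscbr_degLift K ι M g (r : dscbrField K M) = dscbr_cuspHom K ι M g r := by
  have := dscbr_isFractionRing K M
  exact IsFractionRing.lift_algebraMap (dscbr_cuspHom_injective K ι M g) r

/-- the Spec's `dscbr_degLift` IS the generic `dsclDegLift` of the level datum. -/
theorem dscbr_degLift_eq_dscl (g : SL(2, ℤ)) :
    dscbr_degLift K ι M g = dsclDegLift (dscbrLevel K ι M) g := by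
  have := dscbr_isFractionRing K M
  apply IsLocalization.ringHom_ext (nonZeroDivisors (dscbrRing K M))
  ext1 r
  rw [RingHom.comp_apply, RingHom.comp_apply]
  have h1 := dscbr_degLift_coe K ι M g r
  have h2 := dsclDegLift_coe (dscbrLevel K ι M) g r
  rw [← dscbr_cuspHom_eq_dscl] at h2
  exact h1.trans h2.symm

include ι in
/-- THE DEGREE : `[K·F₁(M) : K(j)] = [SL₂(ℤ) : ±Γ₁(M)]` (`M ≥ 6`; false for `M = 5`, where no
admissible triple exists and `dscField 5 1` is the field of `X₀(5)`). -/
theorem dscbr_finrank_j (hM : 6 ≤ M) :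
    Module.finrank K⟮dscbr_j K M⟯ (dscbrField K M) = Nat.card (SL(2, ℤ) ⧸ dscbrGamma M) := by
  have h := dscl_finrank_jF (dscbrLevel K ι M)
  rw [dscbrLevel_jF, dscbrLevel_Γ K ι M hM] at h
  exact h

end Degree

end Fermat.Agent.DS
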