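import Mathlib
import Fermat.Agent.S24.ADefs
import Fermat.Agent.S24.CuspExpSpec
import Fermat.Agent.S24.PlacesGen
import Fermat.Agent.S24.Conj
import Fermat.Agent.DS.C.Br.Defs
import Fermat.Agent.DS.C.Br.Degree

/-!
# Program DS, package (C), row C1c, leaf Br-7 : the DIAMOND automorphisms of `K·F₁(M)`.

Statements VERBATIM as in `Br/Spec.lean` (helper16 9ead8a7); private lemmas carry the prefix
`dscbrd`.  The other leaves (Br-1 ... Br-6) are consumed through `Br/DiamondStub.lean`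
(= verbatim copy of their statements; to be replaced by the real files).
-/

set_option autoImplicit false

noncomputable section

namespace Fermat.Agent.DS

open UpperHalfPlane ModularCurve IntermediateField CongruenceSubgroup Fermat.Agent.S24
open scoped MatrixGroups Manifold ModularForm Real

/-! ## lifting units to `Γ₀(M)` -/

/-- every unit `u` of `ℤ/M` is the lower right entry of some `γ ∈ Γ₀(M)`. -/
theorem dscbrd_exists_gamma (M : ℕ) [NeZero M] (u : (ZMod M)ˣ) :
    ∃ γ : SL(2, ℤ), γ ∈ Gamma0 M ∧ ((γ 1 1 : ℤ) : ZMod M) = (u : ZMod M) := by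
  have hcop : IsCoprime (((u : ZMod M).val : ℕ) : ℤ) ((M : ℕ) : ℤ) :=
    Nat.isCoprime_iff_coprime.mpr (ZMod.val_coe_unit_coprime u)
  obtain ⟨a, b, hab⟩ := hcop
  have hdet : (!![a, -b; (M : ℤ), ((u : ZMod M).val : ℤ)] : Matrix (Fin 2) (Fin 2) ℤ).det = 1 := by
    rw [Matrix.det_fin_two_of]
    linarith
  set γ : SL(2, ℤ) := ⟨!![a, -b; (M : ℤ), ((u : ZMod M).val : ℤ)], hdet⟩ with hγdef
  have h10 : γ 1 0 = (M : ℤ) := rfl
  have h11 : γ 1 1 = ((u : ZMod M).val : ℤ) := rfl
  refine ⟨γ, Gamma0_mem.mpr ?_, ?_⟩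
  · rw [h10]
    simp
  · rw [h11]
    simp

/-! ## the index of `±Γ₁(M)` in `Γ₀(M)` -/

/-- the lower right entry, as a homomorphism `Γ₀(M) → (ℤ/M)ˣ`. -/
def dscbrdPi (M : ℕ) : Gamma0 M →* (ZMod M)ˣ := (Gamma0Map M).toHomUnits

theorem dscbrd_pi_coe (M : ℕ) (γ : Gamma0 M) :
    ((dscbrdPi M γ : (ZMod M)ˣ) : ZMod M) = (((γ : SL(2, ℤ)) 1 1 : ℤ) : ZMod M) := rfl

theorem dscbrd_pi_surjective (M : ℕ) [NeZero M] : Function.Surjective (dscbrdPi M) := by
  intro u
  obtain ⟨γ, hγ, hu⟩ := dscbrd_exists_gamma M u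
  exact ⟨⟨γ, hγ⟩, Units.ext (by rw [dscbrd_pi_coe]; exact hu)⟩

theorem dscbrd_index (M : ℕ) [NeZero M] (S : Subgroup (ZMod M)ˣ)
    (hS : ∀ u, u ∈ S ↔ u = 1 ∨ u = -1) :
    (dscbrGamma M).index = S.index * (Gamma0 M).index := by
  have h1 : (dscbrGamma M).subgroupOf (Gamma0 M) = S.comap (dscbrdPi M) := by
    ext ⟨γ, hγ⟩
    rw [Subgroup.mem_subgroupOf, Subgroup.mem_comap, hS, mem_dscbrGamma]
    have hc : ((γ 1 0 : ℤ) : ZMod M) = 0 := Gamma0_mem.mp hγ
    have hdet : ((γ 0 0 : ℤ) : ZMod M) * ((γ 1 1 : ℤ) : ZMod M) = 1 := by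
      have h := Matrix.SpecialLinearGroup.det_coe γ
      rw [Matrix.det_fin_two] at h
      have h2 := congrArg (Int.cast : ℤ → ZMod M) h
      push_cast at h2
      rw [hc, mul_zero, sub_zero] at h2
      exact h2
    have hd : ∀ v : (ZMod M)ˣ, dscbrdPi M ⟨γ, hγ⟩ = v ↔ ((γ 1 1 : ℤ) : ZMod M) = (v : ZMod M) := by
      intro v
      rw [← Units.val_inj, dscbrd_pi_coe]
    rw [hd, hd, Units.val_one, Units.val_neg, Units.val_one]
    constructor
    · rintro ⟨-, ⟨h1, -⟩ | ⟨h1, -⟩⟩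
      · exact Or.inl h1
      · exact Or.inr h1
    · rintro (h1 | h1)
      · refine ⟨hc, Or.inl ⟨h1, ?_⟩⟩
        rw [h1, mul_one] at hdet
        exact hdet
      · refine ⟨hc, Or.inr ⟨h1, ?_⟩⟩
        rw [h1, mul_neg, mul_one, neg_eq_iff_eq_neg] at hdet
        exact hdet
  rw [← Subgroup.relIndex_mul_index (dscbrGamma_le_Gamma0 M), Subgroup.relIndex, h1,
    Subgroup.index_comap_of_surjective _ (dscbrd_pi_surjective M)]

/-! ## the action of `Γ₀(M)` on the ring -/

section Ring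

variable (K : Type) [Field K] [Algebra ℚ K] (ι : K →+* ℂ) (M : ℕ) [NeZero M]

/-- `x ↦ y` with `γ • toHol x = toHol y`. -/
def dscbrdFun (γ : SL(2, ℤ)) (hγ : γ ∈ Gamma0 M) (x : dscbrRing K M) : dscbrRing K M :=
  (dscbr_exists_smul_toHol K ι M γ hγ x).choose

theorem dscbrd_toHol_fun (γ : SL(2, ℤ)) (hγ : γ ∈ Gamma0 M) (x : dscbrRing K M) :
    dscbr_toHol K ι M (dscbrdFun K ι M γ hγ x) = γ • dscbr_toHol K ι M x :=
  (dscbr_exists_smul_toHol K ι M γ hγ x).choose_spec.symm

theorem dscbrd_smul_C (γ : SL(2, ℤ)) (c : ℂ) : γ • HolRing.C c = HolRing.C c := by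
  apply Subtype.ext
  funext τ
  rw [HolRing.smul_apply]
  rfl

/-- the action of `γ ∈ Γ₀(M)` as a `K`-algebra endomorphism of the ring. -/
def dscbrdHom (γ : SL(2, ℤ)) (hγ : γ ∈ Gamma0 M) : dscbrRing K M →ₐ[K] dscbrRing K M where
  toFun := dscbrdFun K ι M γ hγ
  map_one' := by
    apply dscbr_toHol_injective K ι M
    rw [dscbrd_toHol_fun, map_one, smul_one]
  map_mul' x y := by
    apply dscbr_toHol_injective K ι M
    rw [dscbrd_toHol_fun, map_mul, map_mul, smul_mul', dscbrd_toHol_fun, dscbrd_toHol_fun]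
  map_zero' := by
    apply dscbr_toHol_injective K ι M
    rw [dscbrd_toHol_fun, map_zero, smul_zero]
  map_add' x y := by
    apply dscbr_toHol_injective K ι M
    rw [dscbrd_toHol_fun, map_add, map_add, smul_add, dscbrd_toHol_fun, dscbrd_toHol_fun]
  commutes' c := by
    apply dscbr_toHol_injective K ι M
    rw [dscbrd_toHol_fun, dscbr_toHol_algebraMap, dscbrd_smul_C]

theorem dscbrd_toHol_hom (γ : SL(2, ℤ)) (hγ : γ ∈ Gamma0 M) (x : dscbrRing K M) :
    dscbr_toHol K ι M (dscbrdHom K ι M γ hγ x) = γ • dscbr_toHol K ι M x :=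
  dscbrd_toHol_fun K ι M γ hγ x

/-- the action of `γ ∈ Γ₀(M)` as a `K`-algebra automorphism of the ring. -/
def dscbrdEquiv (γ : SL(2, ℤ)) (hγ : γ ∈ Gamma0 M) : dscbrRing K M ≃ₐ[K] dscbrRing K M :=
  AlgEquiv.ofAlgHom (dscbrdHom K ι M γ hγ) (dscbrdHom K ι M γ⁻¹ (inv_mem hγ))
    (AlgHom.ext fun x => by
      apply dscbr_toHol_injective K ι M
      simp only [AlgHom.coe_comp, Function.comp_apply, AlgHom.coe_id, id_eq]
      rw [dscbrd_toHol_hom, dscbrd_toHol_hom, smul_inv_smul])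
    (AlgHom.ext fun x => by
      apply dscbr_toHol_injective K ι M
      simp only [AlgHom.coe_comp, Function.comp_apply, AlgHom.coe_id, id_eq]
      rw [dscbrd_toHol_hom, dscbrd_toHol_hom, inv_smul_smul])

theorem dscbrd_toHol_equiv (γ : SL(2, ℤ)) (hγ : γ ∈ Gamma0 M) (x : dscbrRing K M) :
    dscbr_toHol K ι M (dscbrdEquiv K ι M γ hγ x) = γ • dscbr_toHol K ι M x :=
  dscbrd_toHol_fun K ι M γ hγ x

/-- `j(dτ)` is invariant under `Γ₀(M)` for `d ∣ M`. -/
theorem dscbrd_equiv_jd (γ : SL(2, ℤ)) (hγ : γ ∈ Gamma0 M) (d : ℕ) [NeZero d] (hd : d ∣ M) :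
    dscbrdEquiv K ι M γ hγ ⟨dscbr_jd K M d hd, dscbr_jd_mem_ring K M d hd⟩ =
      ⟨dscbr_jd K M d hd, dscbr_jd_mem_ring K M d hd⟩ := by
  apply dscbr_toHol_injective K ι M
  rw [dscbrd_toHol_equiv, dscbr_toHol_jd]
  have hγ' : γ⁻¹ ∈ Gamma0 M := inv_mem hγ
  have hdvd : (M : ℤ) ∣ (γ⁻¹ : SL(2, ℤ)) 1 0 :=
    (ZMod.intCast_zmod_eq_zero_iff_dvd _ M).mp (Gamma0_mem.mp hγ')
  obtain ⟨c', hc'⟩ : (d : ℤ) ∣ (γ⁻¹ : SL(2, ℤ)) 1 0 :=
    (Int.natCast_dvd_natCast.mpr hd).trans hdvd
  exact bridge_smul_jdHol d γ c' hc'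

omit [NeZero M] in
theorem dscbrd_r_congr {a b c a' b' c' : ZMod M} (h : DscAdm M a b c) (h' : DscAdm M a' b' c')
    (ea : a = a') (eb : b = b') (ec : c = c') : dscbr_r K M a b c h = dscbr_r K M a' b' c' h' := by
  subst ea eb ec
  rfl

theorem dscbrd_equiv_r (γ : SL(2, ℤ)) (hγ : γ ∈ Gamma0 M) (u : ZMod M)
    (hu : u = ((γ 1 1 : ℤ) : ZMod M)) (a b c : ZMod M) (h : DscAdm M a b c)
    (h' : DscAdm M (u * a) (u * b) (u * c)) :
    dscbrdEquiv K ι M γ hγ ⟨dscbr_r K M a b c h, dscbr_r_mem_ring K M a b c h⟩ =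
      ⟨dscbr_r K M (u * a) (u * b) (u * c) h', dscbr_r_mem_ring K M _ _ _ h'⟩ := by
  subst hu
  apply dscbr_toHol_injective K ι M
  rw [dscbrd_toHol_equiv, dscbr_toHol_r, dscbr_toHol_r, dscbr_smul_RHol M γ hγ h h']

end Ring

/-! ## formal symmetry `X̃_{-k} = X̃_k` -/

theorem dscbrd_X_neg (M : ℕ) (k : ZMod M) : dscX M (-k) = dscX M k := by
  ext n
  simp only [dscX, PowerSeries.coeff_mk, neg_neg]
  refine Finset.sum_congr rfl (fun e _ => ?_)
  rw [add_comm]

theorem dscbrd_XR_neg (R : Type*) [CommRing R] (M : ℕ) (k : ZMod M) :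
    dscXR R M (-k) = dscXR R M k := by
  rw [dscXR, dscXR, dscbrd_X_neg]

theorem dscbrd_R_neg (K : Type*) [Field K] (M : ℕ) (a b c : ZMod M) :
    dscR K M (-a) (-b) (-c) = dscR K M a b c := by
  rw [dscR, dscR, dscbrd_XR_neg, dscbrd_XR_neg, dscbrd_XR_neg]

/-! ## the fixed points of an automorphism of an intermediate field, as a subfield of the ambient field -/

/-- `{y ∈ F | σ y = y}` as an intermediate field of the ambient extension. -/
def dscbrdFix {K L : Type*} [Field K] [Field L] [Algebra K L] (F : IntermediateField K L)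
    (σ : F ≃ₐ[K] F) : IntermediateField K L where
  carrier := {y | ∃ hy : y ∈ F, σ ⟨y, hy⟩ = ⟨y, hy⟩}
  mul_mem' := by
    rintro a b ⟨ha, ha'⟩ ⟨hb, hb'⟩
    refine ⟨F.mul_mem ha hb, ?_⟩
    have e : (⟨a * b, F.mul_mem ha hb⟩ : F) = ⟨a, ha⟩ * ⟨b, hb⟩ := rfl
    rw [e, map_mul, ha', hb']
  one_mem' := by
    refine ⟨F.one_mem, ?_⟩
    have e : (⟨1, F.one_mem⟩ : F) = 1 := rfl
    rw [e, map_one]
  add_mem' := by
    rintro a b ⟨ha, ha'⟩ ⟨hb, hb'⟩
    refine ⟨F.add_mem ha hb, ?_⟩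
    have e : (⟨a + b, F.add_mem ha hb⟩ : F) = ⟨a, ha⟩ + ⟨b, hb⟩ := rfl
    rw [e, map_add, ha', hb']
  zero_mem' := by
    refine ⟨F.zero_mem, ?_⟩
    have e : (⟨0, F.zero_mem⟩ : F) = 0 := rfl
    rw [e, map_zero]
  algebraMap_mem' c := by
    refine ⟨F.algebraMap_mem c, ?_⟩
    have e : (⟨algebraMap K L c, F.algebraMap_mem c⟩ : F) = algebraMap K F c := rfl
    rw [e, σ.commutes]
  inv_mem' := by
    rintro a ⟨ha, ha'⟩
    refine ⟨F.inv_mem ha, ?_⟩
    have e : (⟨a⁻¹, F.inv_mem ha⟩ : F) = (⟨a, ha⟩ : F)⁻¹ := rfl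
    rw [e, map_inv₀, ha']

theorem dscbrd_mem_fix {K L : Type*} [Field K] [Field L] [Algebra K L]
    (F : IntermediateField K L) (σ : F ≃ₐ[K] F) (y : L) :
    y ∈ dscbrdFix F σ ↔ ∃ hy : y ∈ F, σ ⟨y, hy⟩ = ⟨y, hy⟩ := Iff.rfl

theorem dscbrd_coeffEmb_algebraMap (K : Type*) [Field K] [Algebra ℚ K] (c : ℚ) :
    coeffEmb K (algebraMap ℚ (LaurentSeries ℚ) c)
      = algebraMap K (LaurentSeries K) (algebraMap ℚ K c) := by
  rw [algebraMap_laurentSeries_eq_single, algebraMap_laurentSeries_eq_single, coeffEmb,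
    coeffMap_single]

/-- an intermediate field of `K((q))/K` containing `coeffEmb K` of the generators of a rational field
contains its base change. -/
theorem dscbrd_laurentBaseChange_le (K : Type*) [Field K] [Algebra ℚ K]
    (S : Set (LaurentSeries ℚ)) (E : IntermediateField K (LaurentSeries K))
    (h : ∀ z ∈ S, coeffEmb K z ∈ E) :
    laurentBaseChange K (IntermediateField.adjoin ℚ S) ≤ E := by
  rw [laurentBaseChange, IntermediateField.adjoin_le_iff]
  rintro y ⟨z, hz, rfl⟩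
  have hz' : z ∈ IntermediateField.adjoin ℚ S := hz
  induction hz' using IntermediateField.adjoin_induction with
  | mem w hw => exact h w hw
  | algebraMap c =>
      rw [dscbrd_coeffEmb_algebraMap]
      exact E.algebraMap_mem _
  | add a b _ _ ha hb =>
      rw [map_add]
      exact E.add_mem (ha ‹_›) (hb ‹_›)
  | inv a _ ha =>
      rw [map_inv₀]
      exact E.inv_mem (ha ‹_›)
  | mul a b _ _ ha hb =>
      rw [map_mul]
      exact E.mul_mem (ha ‹_›) (hb ‹_›)

/-! ## the field automorphisms -/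

section Diamond

variable (K : Type) [Field K] [Algebra ℚ K] [IsAlgClosed K] (ι : K →+* ℂ) (M : ℕ) [NeZero M]

/-- the action of `γ ∈ Γ₀(M)` on the function field. -/
def dscbrdField (γ : SL(2, ℤ)) (hγ : γ ∈ Gamma0 M) : dscbrField K M ≃ₐ[K] dscbrField K M :=
  haveI := dscbr_isFractionRing K M
  AlgEquiv.ofRingEquiv
    (f := IsFractionRing.ringEquivOfRingEquiv (K := dscbrField K M) (L := dscbrField K M)
      (dscbrdEquiv K ι M γ hγ).toRingEquiv)
    (fun c => by
      haveI := dscbr_isFractionRing K M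
      rw [IsScalarTower.algebraMap_apply K (dscbrRing K M) (dscbrField K M),
        IsFractionRing.ringEquivOfRingEquiv_algebraMap]
      congr 1
      exact (dscbrdEquiv K ι M γ hγ).commutes c)

omit [IsAlgClosed K] in
theorem dscbrd_field_coe (γ : SL(2, ℤ)) (hγ : γ ∈ Gamma0 M) (x : dscbrRing K M) :
    dscbrdField K ι M γ hγ (x : dscbrField K M) =
      ((dscbrdEquiv K ι M γ hγ x : dscbrRing K M) : dscbrField K M) := by
  haveI := dscbr_isFractionRing K M
  exact IsFractionRing.ringEquivOfRingEquiv_algebraMap (K := dscbrField K M)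
    (L := dscbrField K M) (dscbrdEquiv K ι M γ hγ).toRingEquiv x

omit [IsAlgClosed K] in
theorem dscbrd_field_jd (γ : SL(2, ℤ)) (hγ : γ ∈ Gamma0 M) (d : ℕ) [NeZero d] (hd : d ∣ M) :
    dscbrdField K ι M γ hγ (dscbr_jd K M d hd) = dscbr_jd K M d hd := by
  have h := dscbrd_field_coe K ι M γ hγ ⟨dscbr_jd K M d hd, dscbr_jd_mem_ring K M d hd⟩
  rw [dscbrd_equiv_jd] at h
  exact h

omit [IsAlgClosed K] in
theorem dscbrd_field_r (γ : SL(2, ℤ)) (hγ : γ ∈ Gamma0 M) (u : ZMod M)
    (hu : u = ((γ 1 1 : ℤ) : ZMod M)) (a b c : ZMod M) (h : DscAdm M a b c)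
    (h' : DscAdm M (u * a) (u * b) (u * c)) :
    dscbrdField K ι M γ hγ (dscbr_r K M a b c h) = dscbr_r K M (u * a) (u * b) (u * c) h' := by
  have h0 := dscbrd_field_coe K ι M γ hγ ⟨dscbr_r K M a b c h, dscbr_r_mem_ring K M a b c h⟩
  rw [dscbrd_equiv_r K ι M γ hγ u hu a b c h h'] at h0
  exact h0

include ι in
/-- the diamond automorphism `⟨u⟩` of `K·F₁(M)` : `j(q^d) ↦ j(q^d)`, `R_{a,b,c} ↦ R_{ua,ub,uc}`. -/
theorem dscbr_exists_diamond (u : (ZMod M)ˣ) :
    ∃ σ : dscbrField K M ≃ₐ[K] dscbrField K M,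
      (∀ (d : ℕ) [NeZero d] (hd : d ∣ M), σ (dscbr_jd K M d hd) = dscbr_jd K M d hd) ∧
      ∀ (a b c : ZMod M) (h : DscAdm M a b c) (h' : DscAdm M (u * a) (u * b) (u * c)),
        σ (dscbr_r K M a b c h) = dscbr_r K M (u * a) (u * b) (u * c) h' := by
  obtain ⟨γ, hγ, hu⟩ := dscbrd_exists_gamma M u
  exact ⟨dscbrdField K ι M γ hγ, fun d _ hd => dscbrd_field_jd K ι M γ hγ d hd,
    fun a b c h h' => dscbrd_field_r K ι M γ hγ (u : ZMod M) hu.symm a b c h h'⟩

/-- THE DIAMOND AUTOMORPHISM `⟨u⟩` of `K·F₁(M)` (independent of `ι` : it is determined by its values on the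
generators). -/
def dscbrDiamond (u : (ZMod M)ˣ) : dscbrField K M ≃ₐ[K] dscbrField K M :=
  (dscbr_exists_diamond K ι M u).choose

theorem dscbrDiamond_jd (u : (ZMod M)ˣ) (d : ℕ) [NeZero d] (hd : d ∣ M) :
    dscbrDiamond K ι M u (dscbr_jd K M d hd) = dscbr_jd K M d hd :=
  (dscbr_exists_diamond K ι M u).choose_spec.1 d hd

theorem dscbrDiamond_r (u : (ZMod M)ˣ) (a b c : ZMod M) (h : DscAdm M a b c)
    (h' : DscAdm M (u * a) (u * b) (u * c)) :
    dscbrDiamond K ι M u (dscbr_r K M a b c h) = dscbr_r K M (u * a) (u * b) (u * c) h' :=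
  (dscbr_exists_diamond K ι M u).choose_spec.2 a b c h h'

omit [IsAlgClosed K] in
set_option synthInstance.maxHeartbeats 400000 in
/-- two `K`-automorphisms agreeing on the generators are equal. -/
theorem dscbrd_algEquiv_ext (σ τ : dscbrField K M ≃ₐ[K] dscbrField K M)
    (h : ∀ x ∈ dscbrGenSet K M, σ x = τ x) : σ = τ := by
  have htop := dscbr_adjoin_genSet_eq_top K M
  refine AlgEquiv.ext fun x => ?_
  have hx : x ∈ IntermediateField.adjoin K (dscbrGenSet K M) := by
    rw [htop]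
    trivial
  induction hx using IntermediateField.adjoin_induction with
  | mem y hy => exact h y hy
  | algebraMap c => rw [σ.commutes, τ.commutes]
  | add a b _ _ ha hb => rw [map_add, map_add, ha, hb]
  | inv a _ ha => rw [map_inv₀, map_inv₀, ha]
  | mul a b _ _ ha hb => rw [map_mul, map_mul, ha, hb]

/-- uniqueness: a `K`-automorphism is determined by its values on the generators. -/
theorem dscbrDiamond_unique (u : (ZMod M)ˣ) (σ : dscbrField K M ≃ₐ[K] dscbrField K M)
    (h1 : ∀ (d : ℕ) [NeZero d] (hd : d ∣ M), σ (dscbr_jd K M d hd) = dscbr_jd K M d hd)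
    (h2 : ∀ (a b c : ZMod M) (h : DscAdm M a b c) (h' : DscAdm M (u * a) (u * b) (u * c)),
      σ (dscbr_r K M a b c h) = dscbr_r K M (u * a) (u * b) (u * c) h') :
    σ = dscbrDiamond K ι M u := by
  refine dscbrd_algEquiv_ext K M σ _ ?_
  rintro x (⟨d, hd0, hd, rfl⟩ | ⟨a, b, c, h, rfl⟩)
  · rw [h1 d hd, dscbrDiamond_jd]
  · have h' := h.mul_unit u.isUnit
    rw [h2 a b c h h', dscbrDiamond_r K ι M u a b c h h']

theorem dscbrDiamond_mul (u v : (ZMod M)ˣ) :
    dscbrDiamond K ι M (u * v) = dscbrDiamond K ι M u * dscbrDiamond K ι M v := by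
  refine (dscbrDiamond_unique K ι M (u * v) _ (fun d _ hd => ?_) (fun a b c h h' => ?_)).symm
  · rw [AlgEquiv.mul_apply, dscbrDiamond_jd, dscbrDiamond_jd]
  · have hv := h.mul_unit v.isUnit
    have hu := hv.mul_unit u.isUnit
    rw [AlgEquiv.mul_apply, dscbrDiamond_r K ι M v a b c h hv,
      dscbrDiamond_r K ι M u _ _ _ hv hu]
    exact dscbrd_r_congr K M hu h' (by rw [Units.val_mul, mul_assoc])
      (by rw [Units.val_mul, mul_assoc]) (by rw [Units.val_mul, mul_assoc])

theorem dscbrDiamond_one : dscbrDiamond K ι M 1 = 1 := by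
  refine (dscbrDiamond_unique K ι M 1 _ (fun d _ hd => ?_) (fun a b c h h' => ?_)).symm
  · rw [AlgEquiv.one_apply]
  · rw [AlgEquiv.one_apply]
    exact dscbrd_r_congr K M h h' (by rw [Units.val_one, one_mul])
      (by rw [Units.val_one, one_mul]) (by rw [Units.val_one, one_mul])

theorem dscbrDiamond_neg_one : dscbrDiamond K ι M (-1) = 1 := by
  refine (dscbrDiamond_unique K ι M (-1) _ (fun d _ hd => ?_) (fun a b c h h' => ?_)).symm
  · rw [AlgEquiv.one_apply]
  · rw [AlgEquiv.one_apply]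
    apply Subtype.ext
    rw [dscbr_coe_r, dscbr_coe_r]
    have e : ∀ x : ZMod M, ((-1 : (ZMod M)ˣ) : ZMod M) * x = -x := fun x => by
      rw [Units.val_neg, Units.val_one, neg_one_mul]
    rw [e, e, e, dscbrd_R_neg]

/-- on the ring, `⟨γ₁₁⟩` is the action of `γ ∈ Γ₀(M)` on functions. -/
theorem dscbr_toHol_diamond (γ : SL(2, ℤ)) (hγ : γ ∈ Gamma0 M) (u : (ZMod M)ˣ)
    (hu : (u : ZMod M) = ((γ 1 1 : ℤ) : ZMod M)) (x : dscbrRing K M) :
    ∃ hy : dscbrDiamond K ι M u (x : dscbrField K M) ∈ dscbrRing K M,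
      dscbr_toHol K ι M ⟨_, hy⟩ = γ • dscbr_toHol K ι M x := by
  have he : dscbrdField K ι M γ hγ = dscbrDiamond K ι M u :=
    dscbrDiamond_unique K ι M u _ (fun d _ hd => dscbrd_field_jd K ι M γ hγ d hd)
      (fun a b c h h' => dscbrd_field_r K ι M γ hγ (u : ZMod M) hu a b c h h')
  have hx : dscbrDiamond K ι M u (x : dscbrField K M) =
      ((dscbrdEquiv K ι M γ hγ x : dscbrRing K M) : dscbrField K M) := by
    rw [← he, dscbrd_field_coe]
  refine ⟨hx ▸ (dscbrdEquiv K ι M γ hγ x).2, ?_⟩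
  have e : (⟨dscbrDiamond K ι M u (x : dscbrField K M),
      hx ▸ (dscbrdEquiv K ι M γ hγ x).2⟩ : dscbrRing K M) = dscbrdEquiv K ι M γ hγ x :=
    Subtype.ext hx
  rw [e, dscbrd_toHol_equiv]

omit [IsAlgClosed K] in
/-- `K·F₀(M) ⊆ K·F₁(M)`. -/
theorem dscbr_full_le : laurentBaseChange K (modularFunctionFieldFull M) ≤ dscbrField K M := by
  have h1 : modularFunctionFieldFull M ≤ dscField M 1 := by
    rw [modularFunctionFieldFull, IntermediateField.adjoin_le_iff]
    rintro x ⟨d, hd0, hd, rfl⟩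
    exact dscbr_jqd_mem M hd
  exact IntermediateField.adjoin.mono K _ _ (Set.image_mono h1)

/-- the diamonds fix `K·F₀(M)`. -/
theorem dscbrDiamond_full (u : (ZMod M)ˣ) (x : dscbrField K M)
    (hx : (x : LaurentSeries K) ∈ laurentBaseChange K (modularFunctionFieldFull M)) :
    dscbrDiamond K ι M u x = x := by
  have hle : laurentBaseChange K (modularFunctionFieldFull M) ≤
      dscbrdFix (dscbrField K M) (dscbrDiamond K ι M u) := by
    rw [modularFunctionFieldFull]
    refine dscbrd_laurentBaseChange_le K _ _ ?_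
    rintro z ⟨d, hd0, hd, rfl⟩
    exact ⟨coeffEmb_mem_laurentBaseChange K (dscbr_jqd_mem M hd), dscbrDiamond_jd K ι M u d hd⟩
  obtain ⟨_, h⟩ := hle hx
  exact h

/-- faithfulness : only `±1` act trivially (`M ≥ 6`). -/
theorem dscbrDiamond_eq_one_iff (hM : 6 ≤ M) (u : (ZMod M)ˣ) :
    dscbrDiamond K ι M u = 1 ↔ u = 1 ∨ u = -1 := by
  constructor
  · intro h
    have key : ∀ a b c : ZMod M, DscAdm M a b c →
        dscR ℂ M ((u : ZMod M) * a) ((u : ZMod M) * b) ((u : ZMod M) * c) = dscR ℂ M a b c := by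
      intro a b c hadm
      have h' := hadm.mul_unit u.isUnit
      have h1 := dscbrDiamond_r K ι M u a b c hadm h'
      rw [h, AlgEquiv.one_apply] at h1
      have h2 := congrArg (fun z : dscbrField K M => coeffMap ι (z : LaurentSeries K)) h1
      simp only [dscbr_coe_r] at h2
      rw [dscbr_coeffMap_r, dscbr_coeffMap_r] at h2
      exact h2.symm
    rcases dscbr_diamond_faithful M hM u.isUnit key with h1 | h1
    · exact Or.inl (Units.ext h1)
    · refine Or.inr (Units.ext ?_)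
      rw [h1, Units.val_neg, Units.val_one]
  · rintro (rfl | rfl)
    · exact dscbrDiamond_one K ι M
    · exact dscbrDiamond_neg_one K ι M

set_option synthInstance.maxHeartbeats 400000 in
/-- DESCENT TO `ℚ` : the diamonds preserve the rational field `dscField M 1`. -/
theorem dscbrDiamond_coeffEmb (u : (ZMod M)ˣ) (x : LaurentSeries ℚ) (hx : x ∈ dscField M 1) :
    ∃ y ∈ dscField M 1, ((dscbrDiamond K ι M u
      ⟨coeffEmb K x, coeffEmb_mem_laurentBaseChange K hx⟩ : dscbrField K M) : LaurentSeries K) =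
        coeffEmb K y := by
  have key : ∀ x : LaurentSeries ℚ, x ∈ dscField M 1 → ∃ y ∈ dscField M 1,
      ∀ hx' : coeffEmb K x ∈ dscbrField K M,
        ((dscbrDiamond K ι M u ⟨coeffEmb K x, hx'⟩ : dscbrField K M) : LaurentSeries K) =
          coeffEmb K y := by
    intro x hx
    have hx0 : x ∈ IntermediateField.adjoin ℚ (dscGen ℚ M 1) := hx
    induction hx0 using IntermediateField.adjoin_induction with
    | mem w hw =>
        rcases hw with ⟨d, hd0, hd, rfl⟩ | ⟨e, he0, a, b, c, he, hadm, rfl⟩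
        · rw [mul_one] at hd
          rw [jqModC_rat]
          refine ⟨_, dscbr_jqd_mem M hd, fun hx' => ?_⟩
          have e1 : (⟨coeffEmb K (qExpand ℚ d jq), hx'⟩ : dscbrField K M) = dscbr_jd K M d hd := rfl
          rw [e1, dscbrDiamond_jd]
          rfl
        · have he1 : e = 1 := Nat.dvd_one.mp he
          subst he1
          rw [qExpand_one_apply]
          have h' := hadm.mul_unit u.isUnit
          refine ⟨_, dscbr_R_mem M h', fun hx' => ?_⟩
          have e1 : (⟨coeffEmb K (dscR ℚ M a b c), hx'⟩ : dscbrField K M) =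
              dscbr_r K M a b c hadm := rfl
          rw [e1, dscbrDiamond_r K ι M u a b c hadm h']
          rfl
    | algebraMap c =>
        refine ⟨_, (dscField M 1).algebraMap_mem c, fun hx' => ?_⟩
        have e1 : (⟨coeffEmb K (algebraMap ℚ (LaurentSeries ℚ) c), hx'⟩ : dscbrField K M) =
            algebraMap K (dscbrField K M) (algebraMap ℚ K c) := by
          apply Subtype.ext
          exact dscbrd_coeffEmb_algebraMap K c
        rw [e1, AlgEquiv.commutes]
        exact (dscbrd_coeffEmb_algebraMap K c).symm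
    | add a b ha hb iha ihb =>
        have ha0 : a ∈ dscField M 1 := ha
        have hb0 : b ∈ dscField M 1 := hb
        obtain ⟨ya, hya, ha'⟩ := iha ha0
        obtain ⟨yb, hyb, hb'⟩ := ihb hb0
        refine ⟨ya + yb, (dscField M 1).add_mem hya hyb, fun hx' => ?_⟩
        have hca := coeffEmb_mem_laurentBaseChange K ha0
        have hcb := coeffEmb_mem_laurentBaseChange K hb0
        have e1 : (⟨coeffEmb K (a + b), hx'⟩ : dscbrField K M) =
            ⟨coeffEmb K a, hca⟩ + ⟨coeffEmb K b, hcb⟩ := Subtype.ext (map_add _ _ _)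
        rw [e1, map_add, map_add]
        show ((dscbrDiamond K ι M u ⟨coeffEmb K a, hca⟩ : dscbrField K M) : LaurentSeries K) +
          ((dscbrDiamond K ι M u ⟨coeffEmb K b, hcb⟩ : dscbrField K M) : LaurentSeries K) = _
        rw [ha' hca, hb' hcb]
    | inv a ha iha =>
        have ha0 : a ∈ dscField M 1 := ha
        obtain ⟨ya, hya, ha'⟩ := iha ha0
        refine ⟨ya⁻¹, (dscField M 1).inv_mem hya, fun hx' => ?_⟩
        have hca := coeffEmb_mem_laurentBaseChange K ha0
        have e1 : (⟨coeffEmb K a⁻¹, hx'⟩ : dscbrField K M) =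
            (⟨coeffEmb K a, hca⟩ : dscbrField K M)⁻¹ := Subtype.ext (map_inv₀ _ _)
        rw [e1, map_inv₀, map_inv₀]
        show (((dscbrDiamond K ι M u ⟨coeffEmb K a, hca⟩ : dscbrField K M) : LaurentSeries K))⁻¹ = _
        rw [ha' hca]
    | mul a b ha hb iha ihb =>
        have ha0 : a ∈ dscField M 1 := ha
        have hb0 : b ∈ dscField M 1 := hb
        obtain ⟨ya, hya, ha'⟩ := iha ha0
        obtain ⟨yb, hyb, hb'⟩ := ihb hb0
        refine ⟨ya * yb, (dscField M 1).mul_mem hya hyb, fun hx' => ?_⟩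
        have hca := coeffEmb_mem_laurentBaseChange K ha0
        have hcb := coeffEmb_mem_laurentBaseChange K hb0
        have e1 : (⟨coeffEmb K (a * b), hx'⟩ : dscbrField K M) =
            ⟨coeffEmb K a, hca⟩ * ⟨coeffEmb K b, hcb⟩ := Subtype.ext (map_mul _ _ _)
        rw [e1, map_mul, map_mul]
        show ((dscbrDiamond K ι M u ⟨coeffEmb K a, hca⟩ : dscbrField K M) : LaurentSeries K) *
          ((dscbrDiamond K ι M u ⟨coeffEmb K b, hcb⟩ : dscbrField K M) : LaurentSeries K) = _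
        rw [ha' hca, hb' hcb]
  obtain ⟨y, hy, h⟩ := key x hx
  exact ⟨y, hy, h _⟩

/-- the diamonds commute with the coefficientwise Galois action. -/
theorem dscbrDiamond_galois (u : (ZMod M)ˣ) (σ : K ≃ₐ[ℚ] K) (x : dscbrField K M) :
    ((dscbrDiamond K ι M u (arithmeticRingAut (dscField M 1) σ x) : dscbrField K M) :
      LaurentSeries K) =
      coeffMap (σ : K →+* K) ((dscbrDiamond K ι M u x : dscbrField K M) : LaurentSeries K) := by
  set A : dscbrField K M ≃+* dscbrField K M := arithmeticRingAut (dscField M 1) σ with hA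
  -- rational elements are fixed by `A`
  have hArat : ∀ (z : LaurentSeries ℚ) (hz : coeffEmb K z ∈ dscbrField K M),
      A ⟨coeffEmb K z, hz⟩ = ⟨coeffEmb K z, hz⟩ := by
    intro z hz
    apply Subtype.ext
    rw [hA, coe_arithmeticRingAut_apply]
    exact coeffMap_coeffEmb σ z
  have hAsymm : ∀ (z : LaurentSeries ℚ) (hz : coeffEmb K z ∈ dscbrField K M),
      A.symm ⟨coeffEmb K z, hz⟩ = ⟨coeffEmb K z, hz⟩ := by
    intro z hz
    rw [RingEquiv.symm_apply_eq, hArat]
  set τ : dscbrField K M ≃ₐ[K] dscbrField K M :=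
    AlgEquiv.ofRingEquiv (f := A.trans ((dscbrDiamond K ι M u).toRingEquiv.trans A.symm))
      (fun c => by
        simp only [RingEquiv.trans_apply, AlgEquiv.coe_ringEquiv]
        rw [hA, arithmeticRingAut_algebraMap, AlgEquiv.commutes, RingEquiv.symm_apply_eq,
          arithmeticRingAut_algebraMap]) with hτ
  have hτapp : ∀ y, τ y = A.symm (dscbrDiamond K ι M u (A y)) := fun y => rfl
  have hτeq : τ = dscbrDiamond K ι M u := by
    refine dscbrDiamond_unique K ι M u τ (fun d _ hd => ?_) (fun a b c h h' => ?_)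
    · rw [hτapp]
      have e1 : A (dscbr_jd K M d hd) = dscbr_jd K M d hd := hArat _ _
      rw [e1, dscbrDiamond_jd]
      exact hAsymm _ _
    · rw [hτapp]
      have e1 : A (dscbr_r K M a b c h) = dscbr_r K M a b c h := hArat _ _
      rw [e1, dscbrDiamond_r K ι M u a b c h h']
      exact hAsymm _ _
  have h2 : τ x = dscbrDiamond K ι M u x := by rw [hτeq]
  have h3 : A (τ x) = dscbrDiamond K ι M u (A x) := by
    rw [hτapp, RingEquiv.apply_symm_apply]
  have h1 : dscbrDiamond K ι M u (A x) = A (dscbrDiamond K ι M u x) := by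
    rw [← h3, h2]
  rw [h1, hA, coe_arithmeticRingAut_apply]

/-! ## ARTIN : the fixed field of the diamonds -/

set_option synthInstance.maxHeartbeats 400000 in
/-- the diamonds fix `K(j)`. -/
theorem dscbrd_diamond_k (u : (ZMod M)ˣ) (e : dscbrField K M) (he : e ∈ K⟮dscbr_j K M⟯) :
    dscbrDiamond K ι M u e = e := by
  induction he using IntermediateField.adjoin_induction with
  | mem y hy =>
      rw [Set.mem_singleton_iff] at hy
      subst hy
      rw [dscbr_j_eq_jd_one, dscbrDiamond_jd]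
  | algebraMap c => rw [AlgEquiv.commutes]
  | add a b _ _ ha hb => rw [map_add, ha, hb]
  | inv a _ ha => rw [map_inv₀, ha]
  | mul a b _ _ ha hb => rw [map_mul, ha, hb]

/-- the diamonds as automorphisms over `K(j)`. -/
def dscbrdDk (u : (ZMod M)ˣ) : dscbrField K M ≃ₐ[K⟮dscbr_j K M⟯] dscbrField K M :=
  AlgEquiv.ofRingEquiv (f := (dscbrDiamond K ι M u).toRingEquiv)
    (fun e => dscbrd_diamond_k K ι M u e e.2)

theorem dscbrd_Dk_apply (u : (ZMod M)ˣ) (x : dscbrField K M) :
    dscbrdDk K ι M u x = dscbrDiamond K ι M u x := rfl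

/-- `u ↦ ⟨u⟩` as a homomorphism into `Aut(F/K(j))`. -/
def dscbrdDkHom : (ZMod M)ˣ →* (dscbrField K M ≃ₐ[K⟮dscbr_j K M⟯] dscbrField K M) where
  toFun := dscbrdDk K ι M
  map_one' := by
    refine AlgEquiv.ext fun x => ?_
    rw [dscbrd_Dk_apply, dscbrDiamond_one]
    rfl
  map_mul' u v := by
    refine AlgEquiv.ext fun x => ?_
    rw [dscbrd_Dk_apply, dscbrDiamond_mul]
    rfl

theorem dscbrd_mem_ker (hM : 6 ≤ M) (u : (ZMod M)ˣ) :
    u ∈ (dscbrdDkHom K ι M).ker ↔ u = 1 ∨ u = -1 := by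
  rw [MonoidHom.mem_ker, ← dscbrDiamond_eq_one_iff K ι M hM]
  constructor
  · intro h
    refine AlgEquiv.ext fun x => ?_
    have := congrArg (fun σ : dscbrField K M ≃ₐ[K⟮dscbr_j K M⟯] dscbrField K M => σ x) h
    exact this
  · intro h
    refine AlgEquiv.ext fun x => ?_
    have := congrArg (fun σ : dscbrField K M ≃ₐ[K] dscbrField K M => σ x) h
    exact this

set_option synthInstance.maxHeartbeats 400000 in
/-- the restriction of `degLift g` to `K(j)` does not depend on `g`. -/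
theorem dscbrd_degLift_k (g : SL(2, ℤ)) (e : dscbrField K M) (he : e ∈ K⟮dscbr_j K M⟯) :
    dscbr_degLift K ι M g e = dscbr_degLift K ι M 1 e := by
  induction he using IntermediateField.adjoin_induction with
  | mem y hy =>
      rw [Set.mem_singleton_iff] at hy
      subst hy
      have e1 : (dscbr_j K M : dscbrField K M) =
          ((⟨dscbr_j K M, dscbr_j_mem_ring K M⟩ : dscbrRing K M) : dscbrField K M) := rfl
      rw [e1, dscbr_degLift_coe, dscbr_degLift_coe, dscbr_cuspHom_j, dscbr_cuspHom_j]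
  | algebraMap c =>
      have e1 : algebraMap K (dscbrField K M) c =
          ((algebraMap K (dscbrRing K M) c : dscbrRing K M) : dscbrField K M) := rfl
      rw [e1, dscbr_degLift_coe, dscbr_degLift_coe, dscbr_cuspHom_algebraMap,
        dscbr_cuspHom_algebraMap]
  | add a b _ _ ha hb => rw [map_add, map_add, ha, hb]
  | inv a _ ha => rw [map_inv₀, map_inv₀, ha]
  | mul a b _ _ ha hb => rw [map_mul, map_mul, ha, hb]

/-- distinct cosets of `Γ₀(M)` give distinct expansions of `j(Mτ)`. -/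
theorem dscbrd_degLift_jM_inj (g g' : SL(2, ℤ))
    (h : dscbr_degLift K ι M g (dscbr_jd K M M dvd_rfl) =
      dscbr_degLift K ι M g' (dscbr_jd K M M dvd_rfl)) :
    g⁻¹ * g' ∈ Gamma0 M := by
  apply mem_Gamma0_of_smul_jdHol
  set αR : dscbrRing K M := ⟨dscbr_jd K M M dvd_rfl, dscbr_jd_mem_ring K M M dvd_rfl⟩ with hαR
  have e1 : (dscbr_jd K M M dvd_rfl : dscbrField K M) = (αR : dscbrField K M) := rfl
  rw [e1, dscbr_degLift_coe, dscbr_degLift_coe] at h
  have h1 := dscbr_hasCuspExp_cuspHom K ι M g αR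
  have h2 := dscbr_hasCuspExp_cuspHom K ι M g' αR
  have htoHol : dscbr_toHol K ι M αR = jdHol M := dscbr_toHol_jd K ι M M dvd_rfl
  rw [h, htoHol] at h1
  rw [htoHol] at h2
  have h3 : g • jdHol M = g' • jdHol M := Subtype.ext (h1.eq_of_eq h2)
  rw [mul_smul, ← h3, inv_smul_smul]

include ι in
set_option synthInstance.maxHeartbeats 400000 in
set_option maxHeartbeats 1000000 in
/-- `[K(j, j_M) : K(j)] ≥ [SL₂(ℤ) : Γ₀(M)]`. -/
theorem dscbrd_le_finrank :
    (Gamma0 M).index ≤
      Module.finrank K⟮dscbr_j K M⟯ (K⟮dscbr_j K M⟯⟮dscbr_jd K M M dvd_rfl⟯) := by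
  classical
  set α : dscbrField K M := dscbr_jd K M M dvd_rfl with hα
  have hint : IsIntegral K⟮dscbr_j K M⟯ α :=
    dscbr_isIntegral_of_mem_ring K ι M ⟨α, dscbr_jd_mem_ring K M M dvd_rfl⟩
  rw [IntermediateField.adjoin.finrank hint]
  set p := minpoly K⟮dscbr_j K M⟯ α with hp
  set ψ₀ : K⟮dscbr_j K M⟯ →+* LaurentSeries K :=
    (dscbr_degLift K ι M 1).comp (algebraMap K⟮dscbr_j K M⟯ (dscbrField K M)) with hψ₀
  have hcomp : ∀ g : SL(2, ℤ),
      (dscbr_degLift K ι M g).comp (algebraMap K⟮dscbr_j K M⟯ (dscbrField K M)) = ψ₀ :=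
    fun g => RingHom.ext fun e => dscbrd_degLift_k K ι M g e e.2
  have hp0 : p.map ψ₀ ≠ 0 := (Polynomial.map_ne_zero_iff ψ₀.injective).mpr (minpoly.ne_zero hint)
  have hroot : ∀ g : SL(2, ℤ), dscbr_degLift K ι M g α ∈ (p.map ψ₀).roots := by
    intro g
    rw [Polynomial.mem_roots hp0, Polynomial.IsRoot.def, Polynomial.eval_map, ← hcomp g,
      ← Polynomial.hom_eval₂, ← Polynomial.aeval_def, hp, minpoly.aeval, map_zero]
  have : Finite (SL(2, ℤ) ⧸ Gamma0 M) := Subgroup.finite_quotient_of_finiteIndex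
  let _ : Fintype (SL(2, ℤ) ⧸ Gamma0 M) := Fintype.ofFinite _
  set f : SL(2, ℤ) ⧸ Gamma0 M → LaurentSeries K := fun ξ => dscbr_degLift K ι M ξ.out α with hf
  have hinj : Function.Injective f := by
    intro ξ ξ' h
    have h2 := dscbrd_degLift_jM_inj K ι M ξ.out ξ'.out h
    rw [← QuotientGroup.eq, QuotientGroup.out_eq', QuotientGroup.out_eq'] at h2
    exact h2
  have hsub : (Finset.univ.image f).val ⊆ (p.map ψ₀).roots := by
    intro y hy
    rw [Finset.mem_val, Finset.mem_image] at hy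
    obtain ⟨ξ, -, rfl⟩ := hy
    exact hroot ξ.out
  have hcard := Polynomial.card_le_degree_of_subset_roots hsub
  rw [Finset.card_image_of_injective _ hinj, Finset.card_univ, Polynomial.natDegree_map] at hcard
  rw [Subgroup.index, Nat.card_eq_fintype_card]
  exact hcard

set_option synthInstance.maxHeartbeats 400000 in
set_option maxHeartbeats 1000000 in
/-- ARTIN : the fixed field of the diamonds is `K·F₀(M)`; so `K·F₁(M)/K·F₀(M)` is Galois with group
`(ℤ/M)ˣ/±1` (`M ≥ 6`). -/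
theorem dscbr_diamond_fixed (hM : 6 ≤ M) (x : dscbrField K M)
    (hx : ∀ u : (ZMod M)ˣ, dscbrDiamond K ι M u x = x) :
    (x : LaurentSeries K) ∈ laurentBaseChange K (modularFunctionFieldFull M) := by
  classical
  set α : dscbrField K M := dscbr_jd K M M dvd_rfl with hα
  have hfd : FiniteDimensional K⟮dscbr_j K M⟯ (dscbrField K M) := dscbr_finiteDimensional_j K ι M
  set H : Subgroup (dscbrField K M ≃ₐ[K⟮dscbr_j K M⟯] dscbrField K M) :=
    (dscbrdDkHom K ι M).range with hH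
  set E : IntermediateField K⟮dscbr_j K M⟯ (dscbrField K M) := IntermediateField.fixedField H
    with hE
  set A : IntermediateField K⟮dscbr_j K M⟯ (dscbrField K M) := K⟮dscbr_j K M⟯⟮α⟯ with hA
  have hAE : A ≤ E := by
    rw [hA, IntermediateField.adjoin_simple_le_iff, hE, IntermediateField.mem_fixedField_iff]
    rintro f ⟨u, rfl⟩
    exact dscbrDiamond_jd K ι M u M dvd_rfl
  have hxE : x ∈ E := by
    rw [hE, IntermediateField.mem_fixedField_iff]
    rintro f ⟨u, rfl⟩
    exact hx u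
  -- the degrees
  have hcardH : Nat.card H = (dscbrdDkHom K ι M).ker.index := (Subgroup.index_ker _).symm
  have hidx := dscbrd_index M (dscbrdDkHom K ι M).ker (dscbrd_mem_ker K ι M hM)
  have hn : Module.finrank K⟮dscbr_j K M⟯ (dscbrField K M) = (dscbrGamma M).index :=
    dscbr_finrank_j K ι M hM
  have hEF : Module.finrank E (dscbrField K M) = Nat.card H :=
    IntermediateField.finrank_fixedField_eq_card H
  have hAk : (Gamma0 M).index ≤ Module.finrank K⟮dscbr_j K M⟯ A := dscbrd_le_finrank K ι M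
  have htower : Module.finrank K⟮dscbr_j K M⟯ A * Module.finrank A (dscbrField K M) =
      Module.finrank K⟮dscbr_j K M⟯ (dscbrField K M) := Module.finrank_mul_finrank _ _ _
  have hψpos : 0 < (Gamma0 M).index := Nat.pos_of_ne_zero Subgroup.FiniteIndex.index_ne_zero
  have hle : Module.finrank A (dscbrField K M) ≤ Module.finrank E (dscbrField K M) := by
    rw [hEF, hcardH]
    refine Nat.le_of_mul_le_mul_left ?_ hψpos
    calc (Gamma0 M).index * Module.finrank A (dscbrField K M)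
        ≤ Module.finrank K⟮dscbr_j K M⟯ A * Module.finrank A (dscbrField K M) :=
          Nat.mul_le_mul_right _ hAk
      _ = (Gamma0 M).index * (dscbrdDkHom K ι M).ker.index := by
          rw [htower, hn, hidx, mul_comm]
  have hfdA : FiniteDimensional A (dscbrField K M) := inferInstance
  have hEq : A = E := IntermediateField.eq_of_le_of_finrank_le' hAE hle
  have hxA : x ∈ A := hEq ▸ hxE
  -- `K(j)(j_M) ⊆ K·F₀(M)`
  set F0 : IntermediateField K (dscbrField K M) :=
    (laurentBaseChange K (modularFunctionFieldFull M)).comap (dscbrField K M).val with hF0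
  have hjq : jq ∈ modularFunctionFieldFull M := by
    have h := jqd_mem_full (d := 1) M (one_dvd M)
    rwa [qExpand_one_apply] at h
  have hkF0 : K⟮dscbr_j K M⟯ ≤ F0 := by
    rw [IntermediateField.adjoin_simple_le_iff]
    exact coeffEmb_mem_laurentBaseChange K hjq
  have hAF0 : A ≤ IntermediateField.extendScalars hkF0 := by
    rw [hA, IntermediateField.adjoin_simple_le_iff, IntermediateField.mem_extendScalars]
    exact coeffEmb_mem_laurentBaseChange K (jqd_mem_full M dvd_rfl)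
  exact hAF0 hxA

end Diamond

end Fermat.Agent.DS
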