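import Mathlib
import Fermat.Agent.DS.C.Galois
import Fermat.Agent.DS.C.Br.Diamond

/-!
# Program DS, package (C), row C1c : ADAPTER from the bridge diamonds (`Br-7`) to helper29's C0 `DscIsDiamond`
(helper16).

`dscbr_exists_isDiamond K ι M d : ∃ Θ, DscIsDiamond K M 1 d Θ` : the hypothesis under which helper29's
`dscDiamondAut K M 1 d` (hence `dscDiamondBar M d` for `K = ℚ̄`) is the honest diamond automorphism; and
`dscbr_diamondAut_eq : dscDiamondAut K M 1 d = dscbrDiamond K ι M d`.

(Imports `Br/Spec.lean` for the statement `dscbr_exists_diamond` of leaf Br-7; to be re-pointed to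
`Br/Diamond.lean` when helper10 delivers.)
-/

set_option autoImplicit false

noncomputable section

namespace Fermat.Agent.DS

open ModularCurve IntermediateField HahnSeries AlgebraicCurve

variable (K : Type) [Field K] [Algebra ℚ K] [IsAlgClosed K] (ι : K →+* ℂ) (M : ℕ) [NeZero M]

/-- the bridge diamond satisfies helper29's characterisation. -/
theorem dscbr_isDiamond (d : (ZMod M)ˣ) : DscIsDiamond K M 1 d (dscbrDiamond K ι M d) := by
  refine ⟨?_, ?_⟩
  · intro x e he0 he hx
    haveI := he0
    have he' : e ∣ M := by simpa using he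
    have hx' : x = dscbr_jd K M e he' := by
      apply Subtype.ext
      rw [hx, dscbr_coe_jd, ← jqModC_rat, dsc_coeffEmb_jq]
    rw [hx', dscbrDiamond_jd]
  · intro x e he0 a b c he hadm hx
    haveI := he0
    have he1 : e = 1 := Nat.dvd_one.mp he
    subst he1
    have hu : IsUnit ((d : (ZMod M)ˣ) : ZMod M) := d.isUnit
    have hadm' : DscAdm M ((d : ZMod M) * a) (d * b) (d * c) := hadm.mul_unit hu
    have hx' : x = dscbr_r K M a b c hadm := by
      apply Subtype.ext
      have h1 := dsc_coeffEmb_dscR K M 1 a b c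
      rw [qExpand_one_apply, qExpand_one_apply] at h1
      rw [hx, dscbr_coe_r, qExpand_one_apply, h1]
    have h2 := dsc_coeffEmb_dscR K M 1 ((d : ZMod M) * a) (d * b) (d * c)
    rw [qExpand_one_apply, qExpand_one_apply] at h2
    rw [hx', dscbrDiamond_r K ι M d a b c hadm hadm', dscbr_coe_r, qExpand_one_apply, h2]

include ι in
theorem dscbr_exists_isDiamond (d : (ZMod M)ˣ) : ∃ Θ, DscIsDiamond K M 1 d Θ :=
  ⟨_, dscbr_isDiamond K ι M d⟩

/-- helper29's `dscDiamondAut` IS the bridge diamond. -/
theorem dscbr_diamondAut_eq (d : (ZMod M)ˣ) : dscDiamondAut K M 1 d = dscbrDiamond K ι M d :=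
  dsc_isDiamond_unique (dscDiamondAut_spec (dscbr_exists_isDiamond K ι M d))
    (dscbr_isDiamond K ι M d)

end Fermat.Agent.DS
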