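import Mathlib
import Fermat.Agent.DS.C.DiamondMul
import Fermat.Agent.DS.C.Br.DiamondC0

/-!
# Program DS, package (C), row C1c : the diamond operators on `J₁(M)(ℚ̄)` form a group action,
UNCONDITIONALLY

`DS/C/DiamondMul.lean` (helper29, C0) proves the group laws of `dscDiamondBar` conditionally on the
existence of the diamond automorphisms; Br-7 (`Br/Diamond.lean`, helper10) through the adapter
`Br/DiamondC0.lean` gives the existence.  The two statements `dscbr_diamondBar_one`,
`dscbr_diamondBar_mul` are the fields `dia_one`, `dia_mul` of `DscInputs` (C8, helper20).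
-/

set_option autoImplicit false

noncomputable section

namespace Fermat.Agent.DS

open ModularCurve IntermediateField Fermat.Agent.S24

local notation "Qb" => AlgebraicClosure ℚ

/-- existence of ALL the diamond automorphisms of `ℚ̄·F₁(M)`. -/
theorem dscbr_exists_isDiamond_bar (M : ℕ) [NeZero M] (d : (ZMod M)ˣ) :
    ∃ Θ, DscIsDiamond Qb M 1 d Θ :=
  dscbr_exists_isDiamond QBar iotaBar M d

/-- field `dia_one` of `DscInputs`. -/
theorem dscbr_diamondBar_one (M : ℕ) : dscDiamondBar M 1 = 1 :=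
  dscDiamondBar_one M

/-- field `dia_mul` of `DscInputs`. -/
theorem dscbr_diamondBar_mul (M : ℕ) [NeZero M] (d e : (ZMod M)ˣ) :
    dscDiamondBar M (d * e) = dscDiamondBar M d * dscDiamondBar M e :=
  dscDiamondBar_mul (dscbr_exists_isDiamond_bar M d) (dscbr_exists_isDiamond_bar M e)

theorem dscbr_diamondBar_inv_apply (M : ℕ) [NeZero M] (d : (ZMod M)ˣ) (x : DscJ M) :
    dscDiamondBar M d⁻¹ (dscDiamondBar M d x) = x :=
  dscDiamondBar_inv_apply (dscbr_exists_isDiamond_bar M d) x

theorem dscbr_diamondBar_apply_inv (M : ℕ) [NeZero M] (d : (ZMod M)ˣ) (x : DscJ M) :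
    dscDiamondBar M d (dscDiamondBar M d⁻¹ x) = x :=
  dscDiamondBar_apply_inv (dscbr_exists_isDiamond_bar M d) x

theorem dscbr_diamondBar_comm (M : ℕ) [NeZero M] (d e : (ZMod M)ˣ) (x : DscJ M) :
    dscDiamondBar M d (dscDiamondBar M e x) = dscDiamondBar M e (dscDiamondBar M d x) :=
  dscDiamondBar_comm (dscbr_exists_isDiamond_bar M d) (dscbr_exists_isDiamond_bar M e) x

/-- `⟨-1⟩ = 1` on `J₁(M)(ℚ̄)`. -/
theorem dscbr_diamondBar_neg_one (M : ℕ) [NeZero M] : dscDiamondBar M (-1) = 1 := by
  apply LinearMap.ext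
  intro x
  have h : dscDiamondAut Qb M 1 (-1) = 1 := by
    rw [dscbr_diamondAut_eq QBar iotaBar M (-1)]
    exact dscbrDiamond_neg_one QBar iotaBar M
  show dscDiamondPic Qb M 1 (-1) x = x
  rw [dscDiamondPic_apply, h, map_one, one_smul]

end Fermat.Agent.DS
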