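import Mathlib
import Fermat.Agent.DS.C.Br.Degree
import Fermat.Agent.DS.C.JBar

/-!
# Program DS, package (C), row C1c : the (LEVEL) corollary for row C4

`dscFieldBar M 1` IS (definitionally) the function field of the level datum `dscbrLevel ℚ̄ ι̅ M`
(helper17, `Br/Conj.lean`), whose common cusp width is `M`.  This is the black box `dsc_hasLevel`
of `DS/C/Core/Inputs.lean` (helper6), stated in the unfolded form of `DscHasLevel M 1`
(`DS/C/RH/Ram.lean`), so that `dsc_hasLevel M 1 := dscbr_hasLevel M` typechecks by unfolding.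
-/

set_option autoImplicit false

noncomputable section

namespace Fermat.Agent.DS

open ModularCurve IntermediateField Fermat.Agent.S24
open scoped MatrixGroups

local notation "Qb" => AlgebraicClosure ℚ

/-- (LEVEL) `dscFieldBar M 1` is the function field of a level datum over `ℚ̄` whose common cusp
width divides `M · 1`  (this is `DscHasLevel M 1` unfolded). -/
theorem dscbr_hasLevel (M : ℕ) [NeZero M] :
    ∃ L : DscLevel QBar iotaBar, L.F = dscFieldBar M 1 ∧ L.h ∣ M * 1 :=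
  ⟨dscbrLevel QBar iotaBar M, rfl, by simp⟩

/-- the same datum, with its group, for `6 ≤ M` : `Γ = ±Γ₁(M)`. -/
theorem dscbr_hasLevel_Gamma (M : ℕ) [NeZero M] (hM : 6 ≤ M) :
    ∃ L : DscLevel QBar iotaBar, L.F = dscFieldBar M 1 ∧ L.h = M ∧ L.Γ = dscbrGamma M :=
  ⟨dscbrLevel QBar iotaBar M, rfl, rfl, dscbrLevel_Γ QBar iotaBar M hM⟩

/-- (F1) finiteness of `dscFieldBar M 1` over `ℚ̄(j)`. -/
theorem dscbr_finiteDimensional_bar (M : ℕ) [NeZero M] :
    FiniteDimensional Qb⟮dscJBar Qb M 1⟯ (dscFieldBar M 1) := by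
  have h := dscl_finiteDimensional_jF (dscbrLevel QBar iotaBar M)
  have hj : (dscbrLevel QBar iotaBar M).jF = dscJBar Qb M 1 :=
    Subtype.ext ((dscbrLevel QBar iotaBar M).coe_jF)
  rw [hj] at h
  exact h

/-- the `j` of the bridge row is the canonical `dscJBar` of C0. -/
theorem dscbr_j_eq_jBar (M : ℕ) [NeZero M] : dscbr_j Qb M = dscJBar Qb M 1 := rfl

/-- (SEP) `j` is a separating generator of `dscFieldBar M 1 / ℚ̄` : the field `sep` of
`DscInputs` (C8). -/
theorem dscbr_isSepGen_bar (M : ℕ) [NeZero M] : IsSepGen Qb (dscJBar Qb M 1) :=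
  dscbr_isSepGen_j QBar iotaBar M

/-- (DEG) the generic degree : `[ℚ̄·F₁(M) : ℚ̄(j)] = [SL₂(ℤ) : ±Γ₁(M)]`, `M ≥ 6`. -/
theorem dscbr_finrank_bar (M : ℕ) [NeZero M] (hM : 6 ≤ M) :
    Module.finrank Qb⟮dscJBar Qb M 1⟯ (dscFieldBar M 1) =
      Nat.card (SL(2, ℤ) ⧸ dscbrGamma M) :=
  dscbr_finrank_j QBar iotaBar M hM

end Fermat.Agent.DS
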