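import Mathlib
import Fermat.Agent.DS.C.Br.DiamondC0
import Fermat.Agent.G.Desc.Defs

/-!
# Program DS, package (C), row C1c : the diamond automorphisms commute with base change of the
coefficient field

For `K ⊆ K'` algebraically closed of characteristic `0` the coefficientwise base change
`gdIota K K' (dscField M 1) : K·F₁(M) →+* K'·F₁(M)` (main's `G/Desc/Defs.lean`) intertwines the
diamond automorphisms `dscbrDiamond K ι M u` and `dscbrDiamond K' ι' M u` : the equaliser of the two
composites is a subfield of `K·F₁(M)` containing `K` and the generators `j(q^d)`, `R_{a,b,c}`.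

`dscbr_iota_diamondAut` is the case `ℚ̄ ⊆ ℂ` (along `iotaBar`) with C0's `dscDiamondAut` on the left:
the input of the diamond equivariance of `Θ` (row C6).
-/

set_option autoImplicit false

noncomputable section

namespace Fermat.Agent.DS

open ModularCurve IntermediateField Fermat.Agent.S24 Fermat.Agent.G

local notation "Qb" => AlgebraicClosure ℚ

section BC

variable (K : Type) [Field K] [Algebra ℚ K] (K' : Type) [Field K'] [Algebra ℚ K'] [Algebra K K']
  (M : ℕ) [NeZero M]

theorem dscbr_gdIota_jd (d : ℕ) [NeZero d] (hd : d ∣ M) :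
    gdIota K K' (dscField M 1) (dscbr_jd K M d hd) = dscbr_jd K' M d hd :=
  Subtype.ext (gd_coeffEmb_eq K K' _)

theorem dscbr_gdIota_r (a b c : ZMod M) (h : DscAdm M a b c) :
    gdIota K K' (dscField M 1) (dscbr_r K M a b c h) = dscbr_r K' M a b c h :=
  Subtype.ext (gd_coeffEmb_eq K K' _)

/-- two ring homomorphisms out of `K·F₁(M)` which agree on the constants and on the generators
are equal. -/
theorem dscbr_ringHom_ext {B : Type*} [Semiring B] (f g : dscbrField K M →+* B)
    (hc : ∀ c : K, f (algebraMap K (dscbrField K M) c) = g (algebraMap K (dscbrField K M) c))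
    (hjd : ∀ (d : ℕ) [NeZero d] (hd : d ∣ M), f (dscbr_jd K M d hd) = g (dscbr_jd K M d hd))
    (hr : ∀ (a b c : ZMod M) (h : DscAdm M a b c),
      f (dscbr_r K M a b c h) = g (dscbr_r K M a b c h)) : f = g := by
  let E : IntermediateField K (dscbrField K M) :=
    (RingHom.eqLocusField f g).toIntermediateField (fun c => hc c)
  have hle : IntermediateField.adjoin K (dscbrGenSet K M) ≤ E := by
    rw [IntermediateField.adjoin_le_iff]
    rintro x (⟨d, hne, hd, rfl⟩ | ⟨a, b, c, hadm, rfl⟩)
    · exact hjd d hd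
    · exact hr a b c hadm
  rw [dscbr_adjoin_genSet_eq_top] at hle
  ext x
  exact hle (IntermediateField.mem_top (x := x))

end BC

section Diamond

variable (K : Type) [Field K] [Algebra ℚ K] [IsAlgClosed K] (ι : K →+* ℂ)
  (K' : Type) [Field K'] [Algebra ℚ K'] [IsAlgClosed K'] (ι' : K' →+* ℂ) [Algebra K K']
  (M : ℕ) [NeZero M]

/-- (BC) the diamonds commute with base change of the coefficient field. -/
theorem dscbrDiamond_gdIota (u : (ZMod M)ˣ) (x : dscbrField K M) :
    gdIota K K' (dscField M 1) (dscbrDiamond K ι M u x) =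
      dscbrDiamond K' ι' M u (gdIota K K' (dscField M 1) x) := by
  have h := dscbr_ringHom_ext K M
    ((gdIota K K' (dscField M 1)).comp (dscbrDiamond K ι M u : dscbrField K M →+* dscbrField K M))
    ((dscbrDiamond K' ι' M u : dscbrField K' M →+* dscbrField K' M).comp
      (gdIota K K' (dscField M 1))) ?_ ?_ ?_
  · exact congrArg (fun f => f x) h
  · intro c
    simp only [RingHom.comp_apply, RingHom.coe_coe, AlgEquiv.commutes, gdIota_algebraMap]
  · intro d _ hd
    simp only [RingHom.comp_apply, RingHom.coe_coe, dscbrDiamond_jd, dscbr_gdIota_jd]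
  · intro a b c hadm
    have hadm' : DscAdm M ((u : ZMod M) * a) (u * b) (u * c) := hadm.mul_unit u.isUnit
    simp only [RingHom.comp_apply, RingHom.coe_coe, dscbr_gdIota_r,
      dscbrDiamond_r K ι M u a b c hadm hadm', dscbrDiamond_r K' ι' M u a b c hadm hadm']

/-- (BC), coefficientwise form. -/
theorem dscbrDiamond_coeffMap_algebraMap (u : (ZMod M)ˣ) (x : dscbrField K M) :
    coeffMap (algebraMap K K') ((dscbrDiamond K ι M u x : dscbrField K M) : LaurentSeries K) =
      ((dscbrDiamond K' ι' M u (gdIota K K' (dscField M 1) x) : dscbrField K' M) :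
        LaurentSeries K') := by
  rw [← dscbrDiamond_gdIota K ι K' ι' M u x]
  rfl

end Diamond

section Bar

variable (M : ℕ) [NeZero M]

/-- (BC-bar) base change `ℚ̄ → ℂ` along `iotaBar` intertwines C0's diamond automorphism of
`ℚ̄·F₁(M)` with the diamond automorphism of `ℂ·F₁(M)`.  (`gdIota QBar ℂ (dscField M 1)` for the
algebra structure `iotaBar.toAlgebra` is `dscthIota M` of `Th/DescInst.lean`.) -/
theorem dscbr_iota_diamondAut (d : (ZMod M)ˣ) (f : dscFieldBar M 1) :
    letI : Algebra QBar ℂ := iotaBar.toAlgebra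
    gdIota QBar ℂ (dscField M 1) (dscDiamondAut Qb M 1 d f) =
      dscbrDiamond ℂ (RingHom.id ℂ) M d (gdIota QBar ℂ (dscField M 1) f) := by
  letI : Algebra QBar ℂ := iotaBar.toAlgebra
  rw [dscbr_diamondAut_eq QBar iotaBar M d]
  exact dscbrDiamond_gdIota QBar iotaBar ℂ (RingHom.id ℂ) M d f

/-- (BC-bar), coefficientwise form. -/
theorem dscbr_coeffMap_iotaBar_diamondAut (d : (ZMod M)ˣ) (f : dscFieldBar M 1) :
    ∃ hy : coeffMap iotaBar (f : LaurentSeries Qb) ∈ dscbrField ℂ M,
      coeffMap iotaBar ((dscDiamondAut Qb M 1 d f : dscFieldBar M 1) : LaurentSeries Qb) =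
        ((dscbrDiamond ℂ (RingHom.id ℂ) M d ⟨_, hy⟩ : dscbrField ℂ M) : LaurentSeries ℂ) := by
  letI : Algebra QBar ℂ := iotaBar.toAlgebra
  refine ⟨(gdIota QBar ℂ (dscField M 1) f).2, ?_⟩
  have h := congrArg (fun z : dscbrField ℂ M => (z : LaurentSeries ℂ))
    (dscbr_iota_diamondAut M d f)
  exact h

end Bar

end Fermat.Agent.DS
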