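import Mathlib
import Fermat.Agent.DS.C.Br.Diamond

/-!
# Program DS, package (C), row C1c : instance glue for the consumers of the level datum
`dscbrLevel K ι M` (row C6 with `K = ℂ`, `ι = RingHom.id ℂ`; row C5 with `K = ℚ̄`, `ι = iotaBar`)

For `L := dscbrLevel K ι M` :
* (hΓ)   `dscbrLevel_Gamma1_le : Gamma1 M ≤ L.Γ` (every `M ≥ 1`), `dscbrLevel_le_Gamma0 : L.Γ ≤ Gamma0 M`;
* (hneg) `dscbrLevel_mem_or_neg_mem (hM : 6 ≤ M) : γ ∈ L.Γ → γ ∈ Gamma1 M ∨ -γ ∈ Gamma1 M`,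
         `dscbrGamma_mem_or_neg_mem`, `dscbr_neg_one_mem_Gamma`;
* (hΘ)   `dscbrLevel_diamond` : for `γ ∈ Γ₀(M)` with `γ₁₁ ≡ u`, the ring `L.R` is stable under the
         diamond `⟨u⟩` and `L.toHol (⟨u⟩ r) = γ • L.toHol r`  (Br-7 in the language of `DscLevel`;
         the shape of the hypothesis `hΘ` of `dsckm_rel_hecke_tw` / `hδ` of `dsckmh_hasCuspExp_twist`).
-/

set_option autoImplicit false

noncomputable section

namespace Fermat.Agent.DS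

open UpperHalfPlane ModularCurve IntermediateField CongruenceSubgroup Fermat.Agent.S24
open scoped MatrixGroups Manifold ModularForm Real

/-- `-1 ∈ ±Γ₁(M)`. -/
theorem dscbr_neg_one_mem_Gamma (M : ℕ) : (-1 : SL(2, ℤ)) ∈ dscbrGamma M := by
  rw [mem_dscbrGamma]
  refine ⟨by simp, Or.inr ⟨by simp, by simp⟩⟩

/-- an element of `±Γ₁(M)` or its negative lies in `Γ₁(M)`. -/
theorem dscbrGamma_mem_or_neg_mem {M : ℕ} {γ : SL(2, ℤ)} (h : γ ∈ dscbrGamma M) :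
    γ ∈ Gamma1 M ∨ -γ ∈ Gamma1 M := by
  rw [mem_dscbrGamma] at h
  obtain ⟨h10, ⟨h11, h00⟩ | ⟨h11, h00⟩⟩ := h
  · left
    rw [Gamma1_mem]
    exact ⟨h00, h11, h10⟩
  · right
    rw [Gamma1_mem]
    simp only [Matrix.SpecialLinearGroup.coe_neg, Matrix.neg_apply, Int.cast_neg, h00, h11, h10,
      neg_neg, neg_zero, and_self]

/-- conversely. -/
theorem dscbrGamma_of_mem_or_neg_mem {M : ℕ} {γ : SL(2, ℤ)}
    (h : γ ∈ Gamma1 M ∨ -γ ∈ Gamma1 M) : γ ∈ dscbrGamma M := by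
  rcases h with h | h
  · exact Gamma1_le_dscbrGamma M h
  · have h1 := Gamma1_le_dscbrGamma M h
    have h2 := (dscbrGamma M).mul_mem (dscbr_neg_one_mem_Gamma M) h1
    simpa using h2

section Level

variable (K : Type) [Field K] [Algebra ℚ K] [IsAlgClosed K] (ι : K →+* ℂ) (M : ℕ) [NeZero M]

/-- (hΓ) `Γ₁(M)` is contained in the group of the level datum (every `M ≥ 1`). -/
theorem dscbrLevel_Gamma1_le : Gamma1 M ≤ (dscbrLevel K ι M).Γ :=
  (Gamma1_le_dscbrGamma M).trans (dscbrGamma_le_stab K ι M)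

/-- `±Γ₁(M)` is contained in the group of the level datum (every `M ≥ 1`). -/
theorem dscbrLevel_Gamma_le : dscbrGamma M ≤ (dscbrLevel K ι M).Γ :=
  dscbrGamma_le_stab K ι M

/-- (hneg) for `6 ≤ M` the group of the level datum is `±Γ₁(M)`. -/
theorem dscbrLevel_mem_or_neg_mem (hM : 6 ≤ M) {γ : SL(2, ℤ)}
    (h : γ ∈ (dscbrLevel K ι M).Γ) : γ ∈ Gamma1 M ∨ -γ ∈ Gamma1 M := by
  rw [dscbrLevel_Γ K ι M hM] at h
  exact dscbrGamma_mem_or_neg_mem h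

theorem dscbrLevel_le_Gamma0 (hM : 6 ≤ M) : (dscbrLevel K ι M).Γ ≤ Gamma0 M := by
  rw [dscbrLevel_Γ K ι M hM]
  exact dscbrGamma_le_Gamma0 M

theorem dscbrLevel_neg_one_mem : (-1 : SL(2, ℤ)) ∈ (dscbrLevel K ι M).Γ :=
  dscbrLevel_Gamma_le K ι M (dscbr_neg_one_mem_Gamma M)

/-- (hΘ) Br-7 in the language of the level datum : for `γ ∈ Γ₀(M)` with `γ₁₁ ≡ u mod M` the ring
`L.R` is stable under the diamond `⟨u⟩`, and on `L.R` the diamond is the action of `γ` on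
functions (`(γ • f)(τ) = f(γ⁻¹ τ)`). -/
theorem dscbrLevel_diamond (γ : SL(2, ℤ)) (hγ : γ ∈ Gamma0 M) (u : (ZMod M)ˣ)
    (hu : (u : ZMod M) = ((γ 1 1 : ℤ) : ZMod M)) (r : (dscbrLevel K ι M).R) :
    ∃ r' : (dscbrLevel K ι M).R,
      ((r' : (dscbrLevel K ι M).R) : (dscbrLevel K ι M).F) =
        ((dscbrDiamond K ι M u : dscbrField K M ≃ₐ[K] dscbrField K M) :
          dscbrField K M →+* dscbrField K M) (r : (dscbrLevel K ι M).F) ∧
      (dscbrLevel K ι M).toHol r' = γ • (dscbrLevel K ι M).toHol r := by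
  obtain ⟨hy, h⟩ := dscbr_toHol_diamond K ι M γ hγ u hu r
  exact ⟨⟨_, hy⟩, rfl, h⟩

/-- the same for the inverse matrix : `⟨u⟩` with `u ≡ γ₀₀` is `f ↦ f ∘ γ`. -/
theorem dscbrLevel_diamond_inv (γ : SL(2, ℤ)) (hγ : γ ∈ Gamma0 M) (u : (ZMod M)ˣ)
    (hu : (u : ZMod M) = ((γ 0 0 : ℤ) : ZMod M)) (r : (dscbrLevel K ι M).R) :
    ∃ r' : (dscbrLevel K ι M).R,
      ((r' : (dscbrLevel K ι M).R) : (dscbrLevel K ι M).F) =
        ((dscbrDiamond K ι M u : dscbrField K M ≃ₐ[K] dscbrField K M) :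
          dscbrField K M →+* dscbrField K M) (r : (dscbrLevel K ι M).F) ∧
      (dscbrLevel K ι M).toHol r' = γ⁻¹ • (dscbrLevel K ι M).toHol r := by
  refine dscbrLevel_diamond K ι M γ⁻¹ ((Gamma0 M).inv_mem hγ) u ?_ r
  rw [hu, Matrix.SpecialLinearGroup.coe_inv, Matrix.adjugate_fin_two]
  simp

end Level

end Fermat.Agent.DS
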