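/-
Program DS (S48), package (C), rows C1c/C2 — THE LEVEL DATUM OF `X(Γ₁(M) ∩ Γ₀(p))` (helper25).

`dscbrLevelP K ι M p hp F' hF'` := helper25's generic level raising `dsclRaise` applied to helper17's
level datum `dscbrLevel K ι M` of `X₁(M)`, with function field `F' = laurentBaseChange K (dscField M p)`
(`= dscFieldBar M p` for `K = ℚ̄`) BY `rfl`.  Group = `(dscbrLevel K ι M).Γ ⊓ Γ₀(p)` for `p ∤ M`
(`= ±Γ₁(M) ∩ Γ₀(p)` for `6 ≤ M`), width `M p`.
-/
import Mathlib
import Fermat.Agent.DS.C.Br.Conj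
import Fermat.Agent.DS.C.Lv.Raise
import Fermat.Agent.DS.C.Lv.Degree
import Fermat.Agent.DS.C.JBar

set_option autoImplicit false

noncomputable section

namespace Fermat.Agent.DS

open UpperHalfPlane ModularCurve IntermediateField CongruenceSubgroup Fermat.Agent.S24
  Fermat.Agent.S23
open scoped MatrixGroups Manifold ModularForm Real

/-! ### base change of a field given by generators -/

section BaseChange

variable (K : Type) [Field K] [Algebra ℚ K]

theorem dscbrp_coeffEmb_qExpand (n : ℕ) [NeZero n] (x : LaurentSeries ℚ) :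
    coeffEmb K (qExpand ℚ n x) = qExpand K n (coeffEmb K x) := by
  ext k
  by_cases hk : (n : ℤ) ∣ k
  · obtain ⟨m, rfl⟩ := hk
    rw [coeffEmb, coeffMap_coeff, qExpand_coeff_mul, qExpand_coeff_mul, coeffMap_coeff]
  · rw [coeffEmb, coeffMap_coeff, qExpand_coeff_of_not_dvd n _ hk,
      qExpand_coeff_of_not_dvd n _ hk, map_zero]

omit [Algebra ℚ K] in
theorem dscbrp_qExpand_congr {n m : ℕ} [NeZero n] [NeZero m] (h : n = m) (x : LaurentSeries K) :
    qExpand K n x = qExpand K m x := by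
  subst h
  rfl

theorem dscbrp_coeffEmb_algebraMap (c : ℚ) :
    coeffEmb K (algebraMap ℚ (LaurentSeries ℚ) c)
      = algebraMap K (LaurentSeries K) (algebraMap ℚ K c) := by
  rw [algebraMap_laurentSeries_eq_single, algebraMap_laurentSeries_eq_single, coeffEmb,
    coeffMap_single]

/-- the base change of the field generated by `G` is generated by `G`. -/
theorem dscbrp_baseChange_adjoin (G : Set (LaurentSeries ℚ)) :
    laurentBaseChange K (IntermediateField.adjoin ℚ G) =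
      IntermediateField.adjoin K (⇑(coeffEmb K) '' G) := by
  have key : ∀ x ∈ IntermediateField.adjoin ℚ G,
      coeffEmb K x ∈ IntermediateField.adjoin K (⇑(coeffEmb K) '' G) := by
    intro x hx
    induction hx using IntermediateField.adjoin_induction with
    | mem x hx => exact IntermediateField.subset_adjoin K _ ⟨x, hx, rfl⟩
    | algebraMap c =>
        rw [dscbrp_coeffEmb_algebraMap]
        exact IntermediateField.algebraMap_mem _ _
    | add x y _ _ hx' hy' =>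
        rw [map_add]
        exact add_mem hx' hy'
    | inv x _ hx' =>
        rw [map_inv₀]
        exact inv_mem hx'
    | mul x y _ _ hx' hy' =>
        rw [map_mul]
        exact mul_mem hx' hy'
  apply le_antisymm
  · rw [laurentBaseChange, IntermediateField.adjoin_le_iff]
    rintro _ ⟨x, hx, rfl⟩
    exact key x hx
  · rw [IntermediateField.adjoin_le_iff]
    rintro _ ⟨x, hx, rfl⟩
    exact coeffEmb_mem_laurentBaseChange K (IntermediateField.subset_adjoin ℚ G hx)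

end BaseChange

/-! ### the generators of level `(M, p)` -/

section LevelP

variable (K : Type) [Field K] [Algebra ℚ K] [IsAlgClosed K] (ι : K →+* ℂ) (M : ℕ) [NeZero M]
  (p : ℕ) [NeZero p]

omit [IsAlgClosed K] [NeZero p] [NeZero M] in
theorem dscbrp_image_genSet :
    (fun x : dscbrField K M => (x : LaurentSeries K)) '' dscbrGenSet K M =
      {y | ∃ (d : ℕ) (_ : NeZero d), d ∣ M ∧ y = coeffEmb K (qExpand ℚ d jq)} ∪
      {y | ∃ a b c : ZMod M, DscAdm M a b c ∧ y = coeffEmb K (dscR ℚ M a b c)} := by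
  ext y
  constructor
  · rintro ⟨x, (⟨d, hd0, hd, rfl⟩ | ⟨a, b, c, h, rfl⟩), rfl⟩
    · exact Or.inl ⟨d, hd0, hd, rfl⟩
    · exact Or.inr ⟨a, b, c, h, rfl⟩
  · rintro (⟨d, hd0, hd, rfl⟩ | ⟨a, b, c, h, rfl⟩)
    · exact ⟨dscbr_jd K M d hd, Or.inl ⟨d, hd0, hd, rfl⟩, rfl⟩
    · exact ⟨dscbr_r K M a b c h, Or.inr ⟨a, b, c, h, rfl⟩, rfl⟩

/-- for `p` prime, the generators of `dscField M p` are the generators of `dscField M 1` and their
images under `q ↦ q^p`. -/
theorem dscbrp_genSet_eq (hp : p.Prime) :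
    ⇑(coeffEmb K) '' dscGen ℚ M p = dsclrGenSet (dscbrLevel K ι M) p := by
  have himg : ∀ S : Set (dscbrField K M),
      (fun x : dscbrField K M => qExpand K p (x : LaurentSeries K)) '' S =
        (fun y : LaurentSeries K => qExpand K p y) ''
          ((fun x : dscbrField K M => (x : LaurentSeries K)) '' S) := by
    intro S
    rw [Set.image_image]
  show _ = (fun x : dscbrField K M => (x : LaurentSeries K)) '' dscbrGenSet K M ∪
    (fun x : dscbrField K M => qExpand K p (x : LaurentSeries K)) '' dscbrGenSet K M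
  rw [himg, dscbrp_image_genSet]
  ext y
  constructor
  · rintro ⟨x, (⟨d, hd0, hd, rfl⟩ | ⟨e, he0, a, b, c, he, hadm, rfl⟩), rfl⟩
    · obtain ⟨d₁, d₂, hd₁, hd₂, rfl⟩ := (Nat.dvd_mul).mp hd
      have hd₁0 : NeZero d₁ := ⟨fun h => hd0.out (by rw [h, zero_mul])⟩
      rcases (Nat.dvd_prime hp).mp hd₂ with rfl | rfl
      · refine Or.inl (Or.inl ⟨d₁, hd₁0, hd₁, ?_⟩)
        rw [jqModC_rat, dscbrp_qExpand_congr ℚ (mul_one d₁)]
      · refine Or.inr ⟨coeffEmb K (qExpand ℚ d₁ jq), Or.inl ⟨d₁, hd₁0, hd₁, rfl⟩, ?_⟩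
        show qExpand K d₂ (coeffEmb K (qExpand ℚ d₁ jq)) = _
        rw [← dscbrp_coeffEmb_qExpand, qExpand_qExpand, jqModC_rat,
          dscbrp_qExpand_congr ℚ (mul_comm d₂ d₁)]
    · rcases (Nat.dvd_prime hp).mp he with rfl | rfl
      · refine Or.inl (Or.inr ⟨a, b, c, hadm, ?_⟩)
        rw [qExpand_one_apply]
      · refine Or.inr ⟨coeffEmb K (dscR ℚ M a b c), Or.inr ⟨a, b, c, hadm, rfl⟩, ?_⟩
        show qExpand K e (coeffEmb K (dscR ℚ M a b c)) = _
        rw [← dscbrp_coeffEmb_qExpand]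
  · rintro ((⟨d, hd0, hd, rfl⟩ | ⟨a, b, c, hadm, rfl⟩) | ⟨z, (⟨d, hd0, hd, rfl⟩ | ⟨a, b, c, hadm, rfl⟩), rfl⟩)
    · exact ⟨_, Or.inl ⟨d, hd0, Dvd.dvd.mul_right hd p, rfl⟩, by rw [jqModC_rat]⟩
    · exact ⟨_, Or.inr ⟨1, inferInstance, a, b, c, one_dvd p, hadm, rfl⟩, by
        rw [qExpand_one_apply]⟩
    · have : NeZero (p * d) := ⟨Nat.mul_ne_zero (NeZero.ne p) (NeZero.ne d)⟩
      refine ⟨_, Or.inl ⟨p * d, this, by rw [mul_comm]; exact Nat.mul_dvd_mul_right hd p, rfl⟩, ?_⟩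
      show _ = qExpand K p (coeffEmb K (qExpand ℚ d jq))
      rw [← dscbrp_coeffEmb_qExpand, qExpand_qExpand, jqModC_rat]
    · refine ⟨_, Or.inr ⟨p, inferInstance, a, b, c, dvd_rfl, hadm, rfl⟩, ?_⟩
      show _ = qExpand K p (coeffEmb K (dscR ℚ M a b c))
      rw [← dscbrp_coeffEmb_qExpand]

/-- the field of level `(M, p)` over `K` is generated by `F₁(M)` and `F₁(M)(q^p)`. -/
theorem dscbrp_field_eq (hp : p.Prime) :
    laurentBaseChange K (dscField M p) =
      IntermediateField.adjoin K (dsclrGenSet (dscbrLevel K ι M) p) := by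
  rw [← dscbrp_genSet_eq K ι M p hp]
  exact dscbrp_baseChange_adjoin K (dscGen ℚ M p)

/-- THE LEVEL DATUM of `X(Γ₁(M) ∩ Γ₀(p))` over `(K, ι)`, on the field `F'` (any field EQUAL to
`laurentBaseChange K (dscField M p)`, e.g. `laurentBaseChange K (dscField M (1 * p))`). -/
def dscbrLevelP (hp : p.Prime) (F' : IntermediateField K (LaurentSeries K))
    (hF' : F' = laurentBaseChange K (dscField M p)) : DscLevel K ι :=
  dsclRaise (dscbrLevel K ι M) p F' (hF'.trans (dscbrp_field_eq K ι M p hp))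

variable {K ι M p}
variable (hp : p.Prime) {F' : IntermediateField K (LaurentSeries K)}
  (hF' : F' = laurentBaseChange K (dscField M p))

theorem dscbrLevelP_F : (dscbrLevelP K ι M p hp F' hF').F = F' := rfl

theorem dscbrLevelP_h : (dscbrLevelP K ι M p hp F' hF').h = M * p := rfl

theorem dscbrLevelP_eq : dscbrLevelP K ι M p hp F' hF' =
    dsclRaise (dscbrLevel K ι M) p F' (hF'.trans (dscbrp_field_eq K ι M p hp)) := rfl

theorem dscbrLevelP_coe_jF :
    (((dscbrLevelP K ι M p hp F' hF').jF : F') : LaurentSeries K) = coeffEmb K jq :=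
  (dscbrLevelP K ι M p hp F' hF').coe_jF

omit [IsAlgClosed K] in
theorem dscbr_stab_le_Gamma0 : dscbrStab K ι M ≤ Gamma0 M := by
  intro γ hγ
  apply mem_Gamma0_of_smul_jdHol M
  have h1 := hγ ⟨dscbr_jd K M M dvd_rfl, dscbr_jd_mem_ring K M M dvd_rfl⟩
  rw [dscbr_toHol_jd] at h1
  exact h1

omit [IsAlgClosed K] in
theorem dscbr_Gamma1_le_stab : Gamma1 M ≤ dscbrStab K ι M :=
  (Gamma1_le_dscbrGamma M).trans (dscbrGamma_le_stab K ι M)

/-- THE GROUP of level `(M, p)`, `p ∤ M`. -/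
theorem dscbrLevelP_Γ (hpM : ¬ p ∣ M) :
    (dscbrLevelP K ι M p hp F' hF').Γ = (dscbrLevel K ι M).Γ ⊓ Gamma0 p :=
  dsclRaise_Γ_eq _ (fun γ hγ c' hc =>
    dsclr_norm_of_le ((Nat.Prime.coprime_iff_not_dvd hp).mpr hpM)
      (dscbr_Gamma1_le_stab (K := K) (ι := ι) (M := M)) dscbr_stab_le_Gamma0 γ hγ c' hc)

/-- THE GROUP of level `(M, p)`, `p ∤ M`, `6 ≤ M` : `±Γ₁(M) ∩ Γ₀(p)`. -/
theorem dscbrLevelP_Γ' (hM : 6 ≤ M) (hpM : ¬ p ∣ M) :
    (dscbrLevelP K ι M p hp F' hF').Γ = dscbrGamma M ⊓ Gamma0 p := by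
  rw [dscbrLevelP_Γ hp hF' hpM, dscbrLevel_Γ K ι M hM]

end LevelP

/-! ### exports in the C0 names : level `(M, P')`, `P' = p` (e.g. `P' = 1 * p`) -/

section Bar

variable {K : Type} [Field K] [Algebra ℚ K] [IsAlgClosed K] (ι : K →+* ℂ) (M : ℕ) [NeZero M]
  (p : ℕ) [NeZero p]

/-- the level datum on `laurentBaseChange K (dscField M P')`, `P' = p`. -/
abbrev dscbrLevelP' (hp : p.Prime) (P' : ℕ) (hP' : P' = p) : DscLevel K ι :=
  dscbrLevelP K ι M p hp (laurentBaseChange K (dscField M P')) (by rw [hP'])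

theorem dscbrLevelP'_jF (hp : p.Prime) (P' : ℕ) (hP' : P' = p) :
    (dscbrLevelP' ι M p hp P' hP').jF = dscJBar K M P' :=
  Subtype.ext (dscbrLevelP' ι M p hp P' hP').coe_jF

include ι in
/-- (SEP) `j` is a separating generator of the field of level `(M, p)`. -/
theorem dscbrp_isSepGen (hp : p.Prime) (P' : ℕ) (hP' : P' = p) :
    IsSepGen K (dscJBar K M P') := by
  have h := dscl_isSepGen_jF (dscbrLevelP' ι M p hp P' hP')
  rw [dscbrLevelP'_jF] at h
  exact h

include ι in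
/-- (F1) finiteness over `K(j)` at level `(M, p)`. -/
theorem dscbrp_finiteDimensional (hp : p.Prime) (P' : ℕ) (hP' : P' = p) :
    FiniteDimensional K⟮dscJBar K M P'⟯ (laurentBaseChange K (dscField M P')) := by
  have h := dscl_finiteDimensional_jF (dscbrLevelP' ι M p hp P' hP')
  rw [dscbrLevelP'_jF] at h
  exact h

/-- (DEG) the degree over `K(j)` at level `(M, p)`, `p ∤ M` : the index of `Γ ⊓ Γ₀(p)`. -/
theorem dscbrp_finrank (hp : p.Prime) (P' : ℕ) (hP' : P' = p) (hpM : ¬ p ∣ M) :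
    Module.finrank K⟮dscJBar K M P'⟯ (laurentBaseChange K (dscField M P')) =
      Nat.card (SL(2, ℤ) ⧸ ((dscbrLevel K ι M).Γ ⊓ Gamma0 p : Subgroup SL(2, ℤ))) := by
  have h := dscl_finrank_jF (dscbrLevelP' ι M p hp P' hP')
  rw [dscbrLevelP'_jF, dscbrLevelP_Γ hp _ hpM] at h
  exact h

end Bar

section QBar

local notation "Qb" => AlgebraicClosure ℚ

/-- (SEP) over `ℚ̄`, in the shape of the C0 Hecke inputs : level `(M, 1 * p)`. -/
theorem dscbrp_isSepGen_bar (M : ℕ) [NeZero M] (p : ℕ) [NeZero p] (hp : p.Prime) :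
    IsSepGen Qb (dscJBar Qb M (1 * p)) :=
  dscbrp_isSepGen iotaBar M p hp (1 * p) (one_mul p)

end QBar

end Fermat.Agent.DS
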