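import Fermat.Agent.DS.C.U.OrdX

/-!
# Program DS, package (C), row C1c (BRIDGE): the order input `ord_q (X̃_a - X̃_b) = min(|a|, |b|)`

helper2's `dscuo_XR_sub_order` (`DS/C/U/OrdX.lean`) in the names of the bridge Spec
(`dscbrAbs`, `dscbr_X_sub_order`).
-/

set_option autoImplicit false

noncomputable section

namespace Fermat.Agent.DS

/-- `|t|` = the distance of `t : ZMod M` to `0`. -/
def dscbrAbs (M : ℕ) (t : ZMod M) : ℕ := min t.val (M - t.val)

theorem dscbrAbs_eq_dscuoAbs (M : ℕ) [NeZero M] (t : ZMod M) : dscbrAbs M t = dscuoAbs M t := rfl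

/-- C1b-ORD (FORMAL) : `ord_q (X̃_a - X̃_b) = min(|a|, |b|)`. -/
theorem dscbr_X_sub_order (M : ℕ) [NeZero M] {a b : ZMod M} (ha : a ≠ 0) (hb : b ≠ 0) (h1 : a ≠ b)
    (h2 : a ≠ -b) : (dscXR ℂ M a - dscXR ℂ M b).order = (min (dscbrAbs M a) (dscbrAbs M b) : ℕ) :=
  dscuo_XR_sub_order ℂ M ha hb h1 h2

end Fermat.Agent.DS
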